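/-
S25 (Jacobian), package A2 (abstract part): finiteness of `H¹` of a glued module,
Nakayama-type vanishing, openness of the vanishing locus.
Author: helper6470.  Stated against `S25/Core.lean` only.
-/
import Fermat.Agent.S25.Core

set_option autoImplicit false

universe u

namespace Fermat.Agent.S25.DEG.V6190.A2h6470

open Fermat.Agent.S25
open scoped TensorProduct

variable {R : Type u} [CommRing R] {𝔹 : TwoChart R} (N : GluedModule 𝔹)

/-- Multiplication by an element of `B₁₂` as an `R`-linear endomorphism of `N₁₂`. -/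
def smul₁₂ (b : 𝔹.B₁₂) : N.N₁₂ →ₗ[R] N.N₁₂ := Algebra.lsmul R R N.N₁₂ b

@[simp] theorem smul₁₂_apply (b : 𝔹.B₁₂) (y : N.N₁₂) : smul₁₂ N b y = b • y := rfl

theorem ι₁_mem_range_d (n : N.N₁) : N.ι₁ n ∈ LinearMap.range N.d :=
  ⟨(n, 0), by simp [GluedModule.d]⟩

theorem ι₂_mem_range_d (n : N.N₂) : N.ι₂ n ∈ LinearMap.range N.d :=
  ⟨(0, -n), by simp [GluedModule.d]⟩

theorem rf_rg_pow (a : ℕ) : 𝔹.r₁ 𝔹.f ^ a * 𝔹.r₂ 𝔹.g ^ a = 1 := by
  rw [← mul_pow, 𝔹.fg, one_pow]

theorem rg_rf_pow (a : ℕ) : 𝔹.r₂ 𝔹.g ^ a * 𝔹.r₁ 𝔹.f ^ a = 1 := by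
  rw [mul_comm, rf_rg_pow]

/-- (F), abstract form: if `N₁` is generated over `R[f]` by a finite set `s`, then `H¹(N)` is a
finitely generated `R`-module. -/
theorem H1_finite_of_span (s : Finset N.N₁)
    (hs : ∀ n : N.N₁, n ∈ Submodule.span R
      (Set.range fun p : ℕ × s => 𝔹.f ^ p.1 • (p.2 : N.N₁))) :
    Module.Finite R N.H1 := by
  classical
  -- a uniform exponent `M` with `g^M • ι₁ e ∈ ι₂ N₂` for all `e ∈ s`
  have h1 : ∀ e : N.N₁, ∃ (m : ℕ), ∀ j, m ≤ j →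
      𝔹.r₂ 𝔹.g ^ j • N.ι₁ e ∈ LinearMap.range N.d := by
    intro e
    obtain ⟨n, m, hn⟩ := N.surj₂ (N.ι₁ e)
    refine ⟨m, fun j hj => ?_⟩
    obtain ⟨c, rfl⟩ := Nat.exists_eq_add_of_le hj
    have : 𝔹.r₂ 𝔹.g ^ (m + c) • N.ι₁ e = N.ι₂ (𝔹.g ^ c • n) := by
      rw [hn, N.ι₂_smul, smul_smul, map_pow, pow_add]
      congr 1
      calc 𝔹.r₂ 𝔹.g ^ m * 𝔹.r₂ 𝔹.g ^ c * 𝔹.r₁ 𝔹.f ^ m
          = 𝔹.r₂ 𝔹.g ^ c * (𝔹.r₂ 𝔹.g ^ m * 𝔹.r₁ 𝔹.f ^ m) := by ring
        _ = 𝔹.r₂ 𝔹.g ^ c := by rw [rg_rf_pow, mul_one]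
    rw [this]
    exact ι₂_mem_range_d N _
  choose mfun hmfun using h1
  let M : ℕ := s.sup mfun
  have hM : ∀ e ∈ s, ∀ j, M ≤ j → 𝔹.r₂ 𝔹.g ^ j • N.ι₁ e ∈ LinearMap.range N.d :=
    fun e he j hj => hmfun e j (le_trans (Finset.le_sup (f := mfun) he) hj)
  -- the finite generating set
  let T : Set N.N₁₂ := (fun p : ℕ × N.N₁ => 𝔹.r₂ 𝔹.g ^ p.1 • N.ι₁ p.2) '' ((Finset.range M ×ˢ s : Finset (ℕ × N.N₁)) : Set (ℕ × N.N₁))
  have hT : T.Finite := (Finset.finite_toSet _).image _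
  let P : Submodule R N.N₁₂ := Submodule.span R T ⊔ LinearMap.range N.d
  have hgen : ∀ (a b : ℕ) (e : N.N₁), e ∈ s →
      (𝔹.r₂ 𝔹.g ^ b * 𝔹.r₁ 𝔹.f ^ a) • N.ι₁ e ∈ P := by
    intro a b e he
    rcases le_or_gt b a with hba | hab
    · obtain ⟨c, rfl⟩ := Nat.exists_eq_add_of_le hba
      have : (𝔹.r₂ 𝔹.g ^ b * 𝔹.r₁ 𝔹.f ^ (b + c)) • N.ι₁ e = N.ι₁ (𝔹.f ^ c • e) := by
        rw [N.ι₁_smul, map_pow, pow_add, ← mul_assoc, rg_rf_pow, one_mul]
      rw [this]
      exact Submodule.mem_sup_right (ι₁_mem_range_d N _)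
    · obtain ⟨c, rfl⟩ := Nat.exists_eq_add_of_le hab.le
      have : (𝔹.r₂ 𝔹.g ^ (a + c) * 𝔹.r₁ 𝔹.f ^ a) • N.ι₁ e = 𝔹.r₂ 𝔹.g ^ c • N.ι₁ e := by
        congr 1
        calc 𝔹.r₂ 𝔹.g ^ (a + c) * 𝔹.r₁ 𝔹.f ^ a
            = 𝔹.r₂ 𝔹.g ^ c * (𝔹.r₂ 𝔹.g ^ a * 𝔹.r₁ 𝔹.f ^ a) := by ring
          _ = 𝔹.r₂ 𝔹.g ^ c := by rw [rg_rf_pow, mul_one]
      rw [this]
      rcases lt_or_ge c M with hc | hc
      · refine Submodule.mem_sup_left (Submodule.subset_span ?_)
        exact ⟨(c, e), by simp [hc, he], rfl⟩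
      · exact Submodule.mem_sup_right (hM e he c hc)
  have hall : ∀ y : N.N₁₂, y ∈ P := by
    intro y
    obtain ⟨n, m, rfl⟩ := N.surj₁ y
    have hle : Submodule.span R (Set.range fun p : ℕ × s => 𝔹.f ^ p.1 • (p.2 : N.N₁)) ≤
        P.comap ((smul₁₂ N (𝔹.r₂ 𝔹.g ^ m)).comp N.ι₁) := by
      rw [Submodule.span_le]
      rintro _ ⟨⟨j, e⟩, rfl⟩
      simp only [SetLike.mem_coe, Submodule.mem_comap, LinearMap.comp_apply, smul₁₂_apply]
      rw [N.ι₁_smul, smul_smul, map_pow]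
      exact hgen j m e e.2
    exact hle (hs n)
  -- conclude
  have hfin : Module.Finite R (Submodule.span R T) := Module.Finite.span_of_finite R hT
  let φ : Submodule.span R T →ₗ[R] N.H1 :=
    (Submodule.mkQ (LinearMap.range N.d)).comp (Submodule.subtype _)
  refine Module.Finite.of_surjective φ ?_
  intro x
  obtain ⟨y, rfl⟩ := Submodule.mkQ_surjective _ x
  obtain ⟨t, ht, z, hz, rfl⟩ := Submodule.mem_sup.1 (hall y)
  refine ⟨⟨t, ht⟩, ?_⟩
  simp only [φ, LinearMap.comp_apply, Submodule.subtype_apply, map_add]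
  have hz0 : (LinearMap.range N.d).mkQ z = 0 := by
    rw [Submodule.mkQ_apply]; exact (Submodule.Quotient.mk_eq_zero _).2 hz
  rw [hz0, add_zero]

/-! ### Nakayama-type vanishing and openness of the vanishing locus -/

section Nakayama

variable {M : Type u} [AddCommGroup M] [Module R M]

/-- A finitely generated module all of whose fibres vanish is zero. -/
theorem subsingleton_of_fibres [Module.Finite R M]
    (h : ∀ p : PrimeSpectrum R, Subsingleton (p.asIdeal.ResidueField ⊗[R] M)) :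
    Subsingleton M := by
  rw [← Module.support_eq_empty_iff (R := R)]
  ext p
  simp only [Set.mem_empty_iff_false, iff_false,
    Module.mem_support_iff_nontrivial_residueField_tensorProduct, not_nontrivial_iff_subsingleton]
  exact h p

/-- The vanishing locus of the fibres of a finitely generated module is open. -/
theorem isOpen_fibre_subsingleton [Module.Finite R M] :
    IsOpen {p : PrimeSpectrum R | Subsingleton (p.asIdeal.ResidueField ⊗[R] M)} := by
  have : {p : PrimeSpectrum R | Subsingleton (p.asIdeal.ResidueField ⊗[R] M)} =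
      (Module.support R M)ᶜ := by
    ext p
    simp only [Set.mem_ofPred_eq, Set.mem_compl_iff,
      Module.mem_support_iff_nontrivial_residueField_tensorProduct,
      not_nontrivial_iff_subsingleton]
  rw [this]
  exact Module.isClosed_support.isOpen_compl

end Nakayama

/-! ### Kernels of split surjections -/

section Split

variable {P Q : Type u} [AddCommGroup P] [Module R P] [AddCommGroup Q] [Module R Q]
  (d : P →ₗ[R] Q)

/-- A surjection onto a projective module has a retraction onto its kernel, together with a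
section. -/
theorem exists_retraction_ker [Module.Projective R Q] (hd : Function.Surjective d) :
    ∃ (s : Q →ₗ[R] P) (π : P →ₗ[R] LinearMap.ker d), d ∘ₗ s = LinearMap.id ∧
      (∀ x : LinearMap.ker d, π x = x) ∧
      (LinearMap.ker d).subtype ∘ₗ π + s ∘ₗ d = LinearMap.id := by
  obtain ⟨s, hs⟩ := Module.projective_lifting_property d LinearMap.id hd
  have hker : ∀ x : P, ((LinearMap.id : P →ₗ[R] P) - s ∘ₗ d) x ∈ LinearMap.ker d := by
    intro x
    have h1 : d (s (d x)) = d x := by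
      have := LinearMap.congr_fun hs (d x)
      simpa using this
    simp [LinearMap.mem_ker, h1]
  refine ⟨s, LinearMap.codRestrict (LinearMap.ker d) ((LinearMap.id : P →ₗ[R] P) - s ∘ₗ d) hker,
    hs, ?_, ?_⟩
  · rintro ⟨x, hx⟩
    ext
    have hx' : d x = 0 := hx
    simp [hx']
  · ext x
    simp

theorem ker_fg_of_le [Module.Projective R Q] (hd : Function.Surjective d)
    (F : Submodule R P) (hF : F.FG) (hle : LinearMap.ker d ≤ F) : (LinearMap.ker d).FG := by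
  obtain ⟨s, π, -, hπ, -⟩ := exists_retraction_ker d hd
  have hmap : Submodule.map π F = ⊤ := by
    rw [eq_top_iff]
    rintro x -
    exact ⟨x, hle x.2, hπ x⟩
  have h1 : (⊤ : Submodule R (LinearMap.ker d)).FG := by
    rw [← hmap]; exact hF.map π
  exact (Submodule.fg_top _).1 h1

theorem ker_finite_of_le [Module.Projective R Q] (hd : Function.Surjective d)
    (F : Submodule R P) (hF : F.FG) (hle : LinearMap.ker d ≤ F) :
    Module.Finite R (LinearMap.ker d) :=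
  Module.Finite.iff_fg.2 (ker_fg_of_le d hd F hF hle)

theorem ker_projective [Module.Projective R Q] [Module.Projective R P]
    (hd : Function.Surjective d) : Module.Projective R (LinearMap.ker d) := by
  obtain ⟨s, π, -, hπ, -⟩ := exists_retraction_ker d hd
  exact Module.Projective.of_split (LinearMap.ker d).subtype π (by ext x; simp [hπ x])

/-- The kernel of a split surjection commutes with base change: injectivity. -/
theorem ker_baseChange_injective [Module.Projective R Q] (hd : Function.Surjective d)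
    (A : Type u) [CommRing A] [Algebra R A] :
    Function.Injective ((LinearMap.ker d).subtype.baseChange A) := by
  obtain ⟨s, π, -, hπ, -⟩ := exists_retraction_ker d hd
  have h : π.baseChange A ∘ₗ (LinearMap.ker d).subtype.baseChange A = LinearMap.id := by
    rw [← LinearMap.baseChange_comp]
    have : π ∘ₗ (LinearMap.ker d).subtype = LinearMap.id := by ext x; simp [hπ x]
    rw [this, LinearMap.baseChange_id]
  exact Function.LeftInverse.injective (g := π.baseChange A) (fun x => LinearMap.congr_fun h x)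

/-- The kernel of a split surjection commutes with base change: the image of `A ⊗ ker d` is
the kernel of `A ⊗ d`. -/
theorem range_ker_baseChange [Module.Projective R Q] (hd : Function.Surjective d)
    (A : Type u) [CommRing A] [Algebra R A] :
    LinearMap.range ((LinearMap.ker d).subtype.baseChange A) = LinearMap.ker (d.baseChange A) := by
  obtain ⟨s, π, -, -, hsum⟩ := exists_retraction_ker d hd
  apply le_antisymm
  · rintro _ ⟨x, rfl⟩
    rw [LinearMap.mem_ker, ← LinearMap.comp_apply, ← LinearMap.baseChange_comp]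
    have : d ∘ₗ (LinearMap.ker d).subtype = 0 := by ext x; simp
    rw [this, LinearMap.baseChange_zero, LinearMap.zero_apply]
  · intro x hx
    have h := congrArg (fun φ : P →ₗ[R] P => φ.baseChange A x) hsum
    simp only [LinearMap.baseChange_add, LinearMap.baseChange_comp, LinearMap.baseChange_id,
      LinearMap.add_apply, LinearMap.comp_apply, LinearMap.id_apply] at h
    rw [LinearMap.mem_ker.1 hx, map_zero, add_zero] at h
    exact ⟨_, h⟩

end Split

/-! ### Exchanging the two charts -/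

/-- The two-chart with the roles of the two charts exchanged. -/
def swapChart (𝔹 : TwoChart R) : TwoChart R where
  B₁ := 𝔹.B₂
  B₂ := 𝔹.B₁
  B₁₂ := 𝔹.B₁₂
  cr₁ := 𝔹.cr₂
  cr₂ := 𝔹.cr₁
  cr₁₂ := 𝔹.cr₁₂
  alg₁ := 𝔹.alg₂
  alg₂ := 𝔹.alg₁
  alg₁₂ := 𝔹.alg₁₂
  r₁ := 𝔹.r₂
  r₂ := 𝔹.r₁
  f := 𝔹.g
  g := 𝔹.f
  fg := by rw [mul_comm]; exact 𝔹.fg
  surj₁ := 𝔹.surj₂
  surj₂ := 𝔹.surj₁
  ker₁ := 𝔹.ker₂
  ker₂ := 𝔹.ker₁

/-- A glued module, read on the exchanged two-chart. -/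
def swapModule (N : GluedModule 𝔹) : GluedModule (swapChart 𝔹) where
  N₁ := N.N₂
  N₂ := N.N₁
  N₁₂ := N.N₁₂
  acg₁ := N.acg₂
  acg₂ := N.acg₁
  acg₁₂ := N.acg₁₂
  modR₁ := N.modR₂
  modR₂ := N.modR₁
  modR₁₂ := N.modR₁₂
  mod₁ := N.mod₂
  mod₂ := N.mod₁
  mod₁₂ := N.mod₁₂
  tower₁ := N.tower₂
  tower₂ := N.tower₁
  tower₁₂ := N.tower₁₂
  ι₁ := N.ι₂
  ι₂ := N.ι₁
  ι₁_smul := N.ι₂_smul
  ι₂_smul := N.ι₁_smul
  surj₁ := N.surj₂
  ker₁ := N.ker₂
  surj₂ := N.surj₁
  ker₂ := N.ker₁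

theorem mem_H0_iff (x : N.N₁ × N.N₂) : x ∈ N.H0 ↔ N.ι₁ x.1 = N.ι₂ x.2 := by
  simp [GluedModule.H0, GluedModule.d, sub_eq_zero]

theorem swap_mem_H0 (x : N.N₁ × N.N₂) (hx : x ∈ N.H0) :
    ((x.2, x.1) : (swapModule N).N₁ × (swapModule N).N₂) ∈ (swapModule N).H0 := by
  rw [mem_H0_iff] at hx
  exact (mem_H0_iff (swapModule N) (x.2, x.1)).2 hx.symm

/-! ### Boundedness of global sections -/

/-- `N` is an `R`-linear retract of a finite free `R[X]`-module, compatibly with the action of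
`f` (acting as `X` on the free module). -/
def PolyRetract {B : Type u} [CommRing B] [Algebra R B] (f : B) (N : Type u) [AddCommGroup N]
    [Module R N] [Module B N] : Prop :=
  ∃ (m : ℕ) (i : N →ₗ[R] (Fin m → Polynomial R)) (p : (Fin m → Polynomial R) →ₗ[R] N),
    (∀ n, p (i n) = n) ∧ ∀ n, i (f • n) = (Polynomial.X : Polynomial R) • i n

theorem degreeLT_fg (n : ℕ) : (Polynomial.degreeLT R n).FG := by
  have : Module.Finite R (Polynomial.degreeLT R n) :=
    Module.Finite.equiv (Polynomial.degreeLTEquiv R n).symm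
  exact Module.Finite.iff_fg.1 this

/-- First components of global sections lie in a finitely generated `R`-submodule, as soon as
`N₁` is a retract of a finite free `R[f]`-module and `N₂` is finitely generated over `R[g]`. -/
theorem exists_fg_fst (h₁ : PolyRetract (R := R) 𝔹.f N.N₁) (s₂ : Finset N.N₂)
    (hs₂ : ∀ n : N.N₂, n ∈ Submodule.span R
      (Set.range fun p : ℕ × s₂ => 𝔹.g ^ p.1 • (p.2 : N.N₂))) :
    ∃ F₁ : Submodule R N.N₁, F₁.FG ∧ ∀ x ∈ N.H0, x.1 ∈ F₁ := by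
  classical
  obtain ⟨m, i, p, hpi, hiX⟩ := h₁
  have hiXpow : ∀ (K : ℕ) (n : N.N₁), i (𝔹.f ^ K • n) = (Polynomial.X : Polynomial R) ^ K • i n := by
    intro K
    induction K with
    | zero => intro n; simp
    | succ K ih => intro n; rw [pow_succ', mul_smul, hiX, ih, pow_succ', mul_smul]
  have h1 : ∀ e : N.N₂, ∃ (K : ℕ) (n : N.N₁), 𝔹.r₁ 𝔹.f ^ K • N.ι₂ e = N.ι₁ n := by
    intro e
    obtain ⟨n, K, hn⟩ := N.surj₁ (N.ι₂ e)
    refine ⟨K, n, ?_⟩
    rw [hn, smul_smul, rf_rg_pow, one_smul]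
  choose Kf nf hKn using h1
  let d₁ : ℕ := s₂.sup (fun e => Finset.univ.sup (fun j : Fin m => (i (nf e) j).natDegree))
  have hd₁ : ∀ e ∈ s₂, ∀ j, (i (nf e) j).natDegree ≤ d₁ := by
    intro e he j
    exact le_trans (Finset.le_sup (f := fun j : Fin m => (i (nf e) j).natDegree)
      (Finset.mem_univ j))
      (Finset.le_sup (f := fun e => Finset.univ.sup
        (fun j : Fin m => (i (nf e) j).natDegree)) he)
  let W : Submodule R N.N₁₂ :=
    { carrier := {y | ∃ (K : ℕ) (n : N.N₁), 𝔹.r₁ 𝔹.f ^ K • y = N.ι₁ n ∧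
        ∀ j t, K + d₁ < t → (i n j).coeff t = 0}
      zero_mem' := ⟨0, 0, by simp, by simp⟩
      add_mem' := by
        rintro y₁ y₂ ⟨K₁, n₁, h₁, c₁⟩ ⟨K₂, n₂, h₂, c₂⟩
        refine ⟨K₁ + K₂, 𝔹.f ^ K₂ • n₁ + 𝔹.f ^ K₁ • n₂, ?_, ?_⟩
        · rw [map_add, N.ι₁_smul, N.ι₁_smul, ← h₁, ← h₂, smul_smul, smul_smul,
            map_pow, map_pow, smul_add, pow_add, mul_comm (𝔹.r₁ 𝔹.f ^ K₂)]
        · intro j t ht
          rw [map_add, hiXpow, hiXpow]
          simp only [Pi.add_apply, Pi.smul_apply, smul_eq_mul, Polynomial.coeff_add,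
            Polynomial.coeff_X_pow_mul']
          have e1 : (if K₂ ≤ t then (i n₁ j).coeff (t - K₂) else 0) = 0 := by
            split_ifs with h
            · exact c₁ j _ (by omega)
            · rfl
          have e2 : (if K₁ ≤ t then (i n₂ j).coeff (t - K₁) else 0) = 0 := by
            split_ifs with h
            · exact c₂ j _ (by omega)
            · rfl
          rw [e1, e2, add_zero]
      smul_mem' := by
        rintro c y ⟨K, n, h, hc⟩
        refine ⟨K, c • n, ?_, ?_⟩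
        · rw [smul_comm, h, map_smul]
        · intro j t ht
          rw [map_smul]
          simp [hc j t ht] }
  have hWg : ∀ y ∈ W, 𝔹.r₂ 𝔹.g • y ∈ W := by
    rintro y ⟨K, n, h, hc⟩
    refine ⟨K + 1, n, ?_, fun j t ht => hc j t (by omega)⟩
    rw [smul_smul, pow_succ, mul_assoc, 𝔹.fg, mul_one, h]
  have hWgpow : ∀ (j : ℕ) (y : N.N₁₂), y ∈ W → 𝔹.r₂ 𝔹.g ^ j • y ∈ W := by
    intro j
    induction j with
    | zero => intro y hy; simpa using hy
    | succ j ih => intro y hy; rw [pow_succ', mul_smul]; exact hWg _ (ih y hy)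
  have hWe : ∀ e ∈ s₂, N.ι₂ e ∈ W := by
    intro e he
    refine ⟨Kf e, nf e, hKn e, fun j t ht => ?_⟩
    exact Polynomial.coeff_eq_zero_of_natDegree_lt (lt_of_le_of_lt (hd₁ e he j) (by omega))
  have hWall : ∀ b : N.N₂, N.ι₂ b ∈ W := by
    intro b
    have hle : Submodule.span R (Set.range fun p : ℕ × s₂ => 𝔹.g ^ p.1 • (p.2 : N.N₂)) ≤
        W.comap N.ι₂ := by
      rw [Submodule.span_le]
      rintro _ ⟨⟨j, e⟩, rfl⟩
      simp only [SetLike.mem_coe, Submodule.mem_comap]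
      rw [N.ι₂_smul, map_pow]
      exact hWgpow j _ (hWe e e.2)
    exact hle (hs₂ b)
  let D : Submodule R (Fin m → Polynomial R) :=
    Submodule.pi Set.univ (fun _ => Polynomial.degreeLT R (d₁ + 1))
  have hD : D.FG := Submodule.fg_pi (fun _ => degreeLT_fg (d₁ + 1))
  refine ⟨D.map p, hD.map p, ?_⟩
  intro x hx
  rw [mem_H0_iff] at hx
  obtain ⟨K, n, h, hc⟩ : N.ι₁ x.1 ∈ W := hx ▸ hWall x.2
  have h0 : N.ι₁ (𝔹.f ^ K • x.1 - n) = 0 := by
    rw [map_sub, N.ι₁_smul, map_pow, h, sub_self]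
  obtain ⟨K', hK'⟩ := N.ker₁ _ h0
  have h2 : (Polynomial.X : Polynomial R) ^ K' • ((Polynomial.X : Polynomial R) ^ K • i x.1 - i n)
      = 0 := by
    rw [← hiXpow, ← map_sub, ← hiXpow, hK', map_zero]
  have h3 : ∀ j, (Polynomial.X : Polynomial R) ^ K * i x.1 j = i n j := by
    intro j
    have h4 := congrFun h2 j
    simp only [Pi.smul_apply, Pi.sub_apply, smul_eq_mul, Pi.zero_apply] at h4
    have h5 := ((Polynomial.monic_X_pow (R := R) K').mul_right_eq_zero_iff).1 h4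
    exact sub_eq_zero.1 h5
  refine ⟨i x.1, ?_, hpi _⟩
  simp only [D, SetLike.mem_coe, Submodule.mem_pi, Set.mem_univ, forall_true_left]
  intro j
  rw [Polynomial.mem_degreeLT, Polynomial.degree_lt_iff_coeff_zero]
  intro t ht
  have h6 : (i x.1 j).coeff t = ((Polynomial.X : Polynomial R) ^ K * i x.1 j).coeff (t + K) := by
    rw [Polynomial.coeff_X_pow_mul]
  rw [h6, h3 j]
  exact hc j _ (by omega)

/-- Global sections lie in a finitely generated `R`-submodule of `N₁ × N₂`. -/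
theorem exists_fg_H0_le (h₁ : PolyRetract (R := R) 𝔹.f N.N₁) (h₂ : PolyRetract (R := R) 𝔹.g N.N₂)
    (s₁ : Finset N.N₁)
    (hs₁ : ∀ n : N.N₁, n ∈ Submodule.span R
      (Set.range fun p : ℕ × s₁ => 𝔹.f ^ p.1 • (p.2 : N.N₁)))
    (s₂ : Finset N.N₂)
    (hs₂ : ∀ n : N.N₂, n ∈ Submodule.span R
      (Set.range fun p : ℕ × s₂ => 𝔹.g ^ p.1 • (p.2 : N.N₂))) :
    ∃ F : Submodule R (N.N₁ × N.N₂), F.FG ∧ N.H0 ≤ F := by
  obtain ⟨F₁, hF₁, hle₁⟩ := exists_fg_fst N h₁ s₂ hs₂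
  obtain ⟨F₂, hF₂, hle₂⟩ := exists_fg_fst (swapModule N) h₂ s₁ hs₁
  refine ⟨F₁.prod F₂, hF₁.prod hF₂, fun x hx => ?_⟩
  exact ⟨hle₁ x hx, hle₂ (x.2, x.1) (swap_mem_H0 N x hx)⟩

/-! ### (CB1), abstract form -/

theorem d_surjective_of_H1 (hH1 : Subsingleton N.H1) : Function.Surjective N.d := by
  rw [← LinearMap.range_eq_top]
  exact Submodule.Quotient.subsingleton_iff.1 hH1

/-- (CB1): if `H¹(N) = 0`, `N₁₂` is `R`-projective and global sections are bounded, then `H⁰(N)`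
is a finitely generated `R`-module. -/
theorem H0_finite (hH1 : Subsingleton N.H1) [Module.Projective R N.N₁₂]
    (F : Submodule R (N.N₁ × N.N₂)) (hF : F.FG) (hle : N.H0 ≤ F) : Module.Finite R N.H0 :=
  ker_finite_of_le N.d (d_surjective_of_H1 N hH1) F hF hle

/-- (CB1): if `H¹(N) = 0` and `N₁`, `N₂`, `N₁₂` are `R`-projective then `H⁰(N)` is projective. -/
theorem H0_projective (hH1 : Subsingleton N.H1) [Module.Projective R N.N₁₂]
    [Module.Projective R N.N₁] [Module.Projective R N.N₂] : Module.Projective R N.H0 :=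
  ker_projective N.d (d_surjective_of_H1 N hH1)

/-- (CB1): if `H¹(N) = 0` and `N₁₂` is `R`-projective, then `H⁰` commutes with base change. -/
theorem H0_baseChange (hH1 : Subsingleton N.H1) [Module.Projective R N.N₁₂]
    (A : Type u) [CommRing A] [Algebra R A] :
    Function.Injective (N.H0.subtype.baseChange A) ∧
      LinearMap.range (N.H0.subtype.baseChange A) = LinearMap.ker (N.d.baseChange A) :=
  ⟨ker_baseChange_injective N.d (d_surjective_of_H1 N hH1) A,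
    range_ker_baseChange N.d (d_surjective_of_H1 N hH1) A⟩

/-- `H¹` commutes with arbitrary base change (it is a cokernel). -/
noncomputable def H1_baseChange (A : Type u) [CommRing A] [Algebra R A] :
    ((A ⊗[R] N.N₁₂) ⧸ LinearMap.range (N.d.lTensor A)) ≃ₗ[R] A ⊗[R] N.H1 :=
  lTensor.equiv A (f := N.d) (g := (LinearMap.range N.d).mkQ)
    (LinearMap.exact_map_mkQ_range N.d) (Submodule.mkQ_surjective _)

/-- (CB1), Nakayama part: if all fibres of `H¹(N)` vanish and `H¹(N)` is finitely generated,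
then `H¹(N) = 0`. -/
theorem H1_subsingleton_of_fibres [Module.Finite R N.H1]
    (h : ∀ p : PrimeSpectrum R, Subsingleton (p.asIdeal.ResidueField ⊗[R] N.H1)) :
    Subsingleton N.H1 :=
  subsingleton_of_fibres h

/-- (CB2): the locus where the fibre of `H¹(N)` vanishes is open. -/
theorem isOpen_H1_fibre_subsingleton [Module.Finite R N.H1] :
    IsOpen {p : PrimeSpectrum R | Subsingleton (p.asIdeal.ResidueField ⊗[R] N.H1)} :=
  isOpen_fibre_subsingleton

/-! ### (H0): global functions -/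

section GlobalFunctions

variable {k : Type u} [Field k] {V₁ V₂ V₁₂ : Type u} [AddCommGroup V₁] [AddCommGroup V₂]
  [AddCommGroup V₁₂] [Module k V₁] [Module k V₂] [Module k V₁₂]

/-- Flat base change for the equaliser of two linear maps, when the equaliser is a line. -/
theorem equaliser_lTensor (u₁ : V₁ →ₗ[k] V₁₂) (u₂ : V₂ →ₗ[k] V₁₂) (e₁ : V₁) (e₂ : V₂)
    (he : u₁ e₁ = u₂ e₂)
    (hglob : ∀ a₁ a₂, u₁ a₁ = u₂ a₂ → ∃ c : k, a₁ = c • e₁ ∧ a₂ = c • e₂)
    (S : Type u) [AddCommGroup S] [Module k S] (x : S ⊗[k] V₁) (y : S ⊗[k] V₂)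
    (h : u₁.lTensor S x = u₂.lTensor S y) : ∃ c : S, x = c ⊗ₜ[k] e₁ ∧ y = c ⊗ₜ[k] e₂ := by
  let j : k →ₗ[k] V₁ × V₂ :=
    (LinearMap.toSpanSingleton k V₁ e₁).prod (LinearMap.toSpanSingleton k V₂ e₂)
  let δ : V₁ × V₂ →ₗ[k] V₁₂ :=
    u₁ ∘ₗ LinearMap.fst k V₁ V₂ - u₂ ∘ₗ LinearMap.snd k V₁ V₂
  have hex : Function.Exact j δ := by
    intro z
    constructor
    · intro hz
      have hz' : u₁ z.1 = u₂ z.2 := by simpa [δ, sub_eq_zero] using hz
      obtain ⟨c, h1, h2⟩ := hglob _ _ hz'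
      exact ⟨c, by ext <;> simp [j, h1, h2]⟩
    · rintro ⟨c, rfl⟩
      simp [j, δ, he]
  have hex' := Module.Flat.lTensor_exact S hex
  let z : S ⊗[k] (V₁ × V₂) :=
    (LinearMap.inl k V₁ V₂).lTensor S x + (LinearMap.inr k V₁ V₂).lTensor S y
  have hz : δ.lTensor S z = 0 := by
    simp only [z, map_add, ← LinearMap.lTensor_comp_apply]
    have e1 : δ ∘ₗ LinearMap.inl k V₁ V₂ = u₁ := by ext a; simp [δ]
    have e2 : δ ∘ₗ LinearMap.inr k V₁ V₂ = -u₂ := by ext a; simp [δ]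
    rw [e1, e2, LinearMap.lTensor_neg, LinearMap.neg_apply, h, add_neg_cancel]
  obtain ⟨w, hw⟩ := (hex' z).1 hz
  refine ⟨TensorProduct.rid k S w, ?_, ?_⟩
  · have hx : x = (LinearMap.fst k V₁ V₂).lTensor S z := by
      simp only [z, map_add, ← LinearMap.lTensor_comp_apply]
      have e1 : LinearMap.fst k V₁ V₂ ∘ₗ LinearMap.inl k V₁ V₂ = LinearMap.id := by ext a; simp
      have e2 : LinearMap.fst k V₁ V₂ ∘ₗ LinearMap.inr k V₁ V₂ = 0 := by ext a; simp
      rw [e1, e2]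
      simp
    have key : ∀ w : S ⊗[k] k, (LinearMap.fst k V₁ V₂ ∘ₗ j).lTensor S w =
        TensorProduct.rid k S w ⊗ₜ[k] e₁ := by
      intro w
      induction w using TensorProduct.induction_on with
      | zero => simp
      | tmul a c => simp [j, TensorProduct.smul_tmul]
      | add a b ha hb => simp only [map_add, TensorProduct.add_tmul, ha, hb]
    rw [hx, ← hw, ← LinearMap.lTensor_comp_apply, key]
  · have hy : y = (LinearMap.snd k V₁ V₂).lTensor S z := by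
      simp only [z, map_add, ← LinearMap.lTensor_comp_apply]
      have e1 : LinearMap.snd k V₁ V₂ ∘ₗ LinearMap.inl k V₁ V₂ = 0 := by ext a; simp
      have e2 : LinearMap.snd k V₁ V₂ ∘ₗ LinearMap.inr k V₁ V₂ = LinearMap.id := by ext a; simp
      rw [e1, e2]
      simp
    have key : ∀ w : S ⊗[k] k, (LinearMap.snd k V₁ V₂ ∘ₗ j).lTensor S w =
        TensorProduct.rid k S w ⊗ₜ[k] e₂ := by
      intro w
      induction w using TensorProduct.induction_on with
      | zero => simp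
      | tmul a c => simp [j, TensorProduct.smul_tmul]
      | add a b ha hb => simp only [map_add, TensorProduct.add_tmul, ha, hb]
    rw [hy, ← hw, ← LinearMap.lTensor_comp_apply, key]

/-- (H0) for a curve presentation: the global functions of `C_S` are `S`. -/
theorem curve_global_functions (𝒞 : CurveData k) (S : Type u) [AddCommGroup S] [Module k S]
    (x : S ⊗[k] 𝒞.A₁) (y : S ⊗[k] 𝒞.A₂)
    (h : 𝒞.r₁.toLinearMap.lTensor S x = 𝒞.r₂.toLinearMap.lTensor S y) :
    ∃ c : S, x = c ⊗ₜ[k] (1 : 𝒞.A₁) ∧ y = c ⊗ₜ[k] (1 : 𝒞.A₂) := by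
  refine equaliser_lTensor 𝒞.r₁.toLinearMap 𝒞.r₂.toLinearMap 1 1 (by simp) ?_ S x y h
  intro a₁ a₂ ha
  obtain ⟨c, rfl⟩ := 𝒞.glob a₁ a₂ ha
  refine ⟨c, by rw [Algebra.algebraMap_eq_smul_one], ?_⟩
  apply 𝒞.inj₂
  have ha' : 𝒞.r₁ (algebraMap k 𝒞.A₁ c) = 𝒞.r₂ a₂ := ha
  rw [← ha', map_smul, map_one, AlgHom.commutes, Algebra.algebraMap_eq_smul_one]

end GlobalFunctions

/-! ### (F) in terms of `Module.Finite` over `R[f]` -/

/-- Generators over `R[f]` give `R`-generators `f ^ j • e`. -/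
theorem exists_finset_span_pow {B : Type u} [CommRing B] [Algebra R B] (f : B) (M : Type u)
    [AddCommGroup M] [Module R M] [Module B M] [IsScalarTower R B M]
    [Module.Finite (Algebra.adjoin R ({f} : Set B)) M] :
    ∃ s : Finset M, ∀ n : M, n ∈ Submodule.span R
      (Set.range fun p : ℕ × s => f ^ p.1 • (p.2 : M)) := by
  classical
  obtain ⟨s, hs⟩ := Module.Finite.fg_top (R := Algebra.adjoin R ({f} : Set B)) (M := M)
  refine ⟨s, ?_⟩
  set T : Submodule R M := Submodule.span R (Set.range fun p : ℕ × s => f ^ p.1 • (p.2 : M))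
    with hT
  have hTf : ∀ n ∈ T, f • n ∈ T := by
    have hle : T ≤ T.comap (Algebra.lsmul R R M f) := by
      rw [hT, Submodule.span_le]
      rintro _ ⟨⟨j, e⟩, rfl⟩
      simp only [SetLike.mem_coe, Submodule.mem_comap, Algebra.lsmul_coe]
      rw [← hT, smul_smul, ← pow_succ']
      exact Submodule.subset_span ⟨(j + 1, e), rfl⟩
    exact fun n hn => hle hn
  have hTa : ∀ a : B, a ∈ Algebra.adjoin R ({f} : Set B) → ∀ n ∈ T, a • n ∈ T := by
    intro a ha
    induction ha using Algebra.adjoin_induction with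
    | mem x hx =>
      rw [Set.mem_singleton_iff] at hx
      subst hx
      exact hTf
    | algebraMap r =>
      intro n hn
      rw [algebraMap_smul]
      exact T.smul_mem r hn
    | add x y _ _ hx hy =>
      intro n hn
      rw [add_smul]
      exact T.add_mem (hx n hn) (hy n hn)
    | mul x y _ _ hx hy =>
      intro n hn
      rw [mul_smul]
      exact hx _ (hy n hn)
  intro n
  have hn : n ∈ Submodule.span (Algebra.adjoin R ({f} : Set B)) (s : Set M) := by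
    rw [hs]; trivial
  induction hn using Submodule.span_induction with
  | mem x hx =>
    refine Submodule.subset_span ⟨(0, ⟨x, hx⟩), ?_⟩
    simp
  | zero => exact T.zero_mem
  | add x y _ _ hx hy => exact T.add_mem hx hy
  | smul a x _ hx => exact hTa a.1 a.2 x hx

/-- (F): if `N₁` is finitely generated over `R[f]` then `H¹(N)` is a finitely generated
`R`-module. -/
theorem H1_finite [Module.Finite (Algebra.adjoin R ({𝔹.f} : Set 𝔹.B₁)) N.N₁] :
    Module.Finite R N.H1 := by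
  obtain ⟨s, hs⟩ := exists_finset_span_pow (R := R) 𝔹.f N.N₁
  exact H1_finite_of_span N s hs

/-- (F): if `B₁` is finite over `R[f]` and `N₁` is finite over `B₁`, then `H¹(N)` is a finitely
generated `R`-module. -/
theorem H1_finite' [Module.Finite (Algebra.adjoin R ({𝔹.f} : Set 𝔹.B₁)) 𝔹.B₁]
    [Module.Finite 𝔹.B₁ N.N₁] : Module.Finite R N.H1 := by
  have : Module.Finite (Algebra.adjoin R ({𝔹.f} : Set 𝔹.B₁)) N.N₁ :=
    Module.Finite.trans 𝔹.B₁ N.N₁
  exact H1_finite N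

/-! ### Automorphisms of line bundles -/

/-- `N₁₂` is a faithful `B₁₂`-module as soon as `N₁` is a finitely generated faithful
`B₁`-module. -/
theorem eq_zero_of_smul₁₂ [Module.Finite 𝔹.B₁ N.N₁] [FaithfulSMul 𝔹.B₁ N.N₁] (c : 𝔹.B₁₂)
    (hc : ∀ y : N.N₁₂, c • y = 0) : c = 0 := by
  classical
  obtain ⟨a, n, rfl⟩ := 𝔹.surj₁ c
  have h1 : ∀ m : N.N₁, ∃ K : ℕ, 𝔹.f ^ K • (a • m) = 0 := by
    intro m
    apply N.ker₁
    have := hc (𝔹.r₁ 𝔹.f ^ n • N.ι₁ m)
    rw [smul_smul, mul_assoc, rg_rf_pow, mul_one] at this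
    rw [N.ι₁_smul, this]
  choose Kf hKf using h1
  obtain ⟨s, hs⟩ := Module.Finite.fg_top (R := 𝔹.B₁) (M := N.N₁)
  let K : ℕ := s.sup Kf
  have h2 : ∀ m : N.N₁, (𝔹.f ^ K * a) • m = 0 := by
    intro m
    have hm : m ∈ Submodule.span 𝔹.B₁ (s : Set N.N₁) := by rw [hs]; trivial
    induction hm using Submodule.span_induction with
    | mem x hx =>
      obtain ⟨c, hc⟩ := Nat.exists_eq_add_of_le (Finset.le_sup (f := Kf) hx)
      have hK : K = Kf x + c := hc
      rw [hK, mul_smul, pow_add, mul_comm, mul_smul, hKf, smul_zero]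
    | zero => simp
    | add x y _ _ hx hy => rw [smul_add, hx, hy, add_zero]
    | smul b x _ hx => rw [smul_comm, hx, smul_zero]
  have h3 : 𝔹.f ^ K * a = 0 := by
    apply FaithfulSMul.eq_of_smul_eq_smul (α := N.N₁)
    intro m
    rw [h2, zero_smul]
  have h4 : 𝔹.r₁ a = 0 := by
    have : 𝔹.r₁ a = 𝔹.r₂ 𝔹.g ^ K * 𝔹.r₁ (𝔹.f ^ K * a) := by
      rw [map_mul, map_pow, ← mul_assoc, rg_rf_pow, one_mul]
    rw [this, h3, map_zero, mul_zero]
  rw [h4, zero_mul]

/-- The inverse of an isomorphism of glued modules. -/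
def isoSymm {N N' : GluedModule 𝔹} (e : N.Iso N') : N'.Iso N where
  e₁ := e.e₁.symm
  e₂ := e.e₂.symm
  e₁₂ := e.e₁₂.symm
  comm₁ n := by
    apply e.e₁₂.injective
    rw [LinearEquiv.apply_symm_apply, e.comm₁, LinearEquiv.apply_symm_apply]
  comm₂ n := by
    apply e.e₁₂.injective
    rw [LinearEquiv.apply_symm_apply, e.comm₂, LinearEquiv.apply_symm_apply]

/-- An automorphism of a line bundle is multiplication by a global function. -/
theorem aut_scalar (hN : N.IsLineBundle) (e : N.Iso N) :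
    ∃ (u₁ : 𝔹.B₁) (u₂ : 𝔹.B₂), 𝔹.r₁ u₁ = 𝔹.r₂ u₂ ∧ (∀ n, e.e₁ n = u₁ • n) ∧
      (∀ n, e.e₂ n = u₂ • n) ∧ ∀ y, e.e₁₂ y = 𝔹.r₁ u₁ • y := by
  have i₁ := hN.inv₁
  have i₂ := hN.inv₂
  obtain ⟨u₁, hu₁⟩ := (Module.Invertible.toModuleEnd_bijective 𝔹.B₁ N.N₁).2 e.e₁.toLinearMap
  obtain ⟨u₂, hu₂⟩ := (Module.Invertible.toModuleEnd_bijective 𝔹.B₂ N.N₂).2 e.e₂.toLinearMap
  have h₁ : ∀ n, e.e₁ n = u₁ • n := fun n => (LinearMap.congr_fun hu₁ n).symm
  have h₂ : ∀ n, e.e₂ n = u₂ • n := fun n => (LinearMap.congr_fun hu₂ n).symm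
  have h₁₂ : ∀ y, e.e₁₂ y = 𝔹.r₁ u₁ • y := by
    intro y
    obtain ⟨n, m, rfl⟩ := N.surj₁ y
    rw [map_smul, e.comm₁, h₁, N.ι₁_smul, smul_comm]
  have h₁₂' : ∀ y, e.e₁₂ y = 𝔹.r₂ u₂ • y := by
    intro y
    obtain ⟨n, m, rfl⟩ := N.surj₂ y
    rw [map_smul, e.comm₂, h₂, N.ι₂_smul, smul_comm]
  refine ⟨u₁, u₂, ?_, h₁, h₂, h₁₂⟩
  have h0 : 𝔹.r₁ u₁ - 𝔹.r₂ u₂ = 0 := by
    apply eq_zero_of_smul₁₂ N
    intro y
    rw [sub_smul, ← h₁₂, ← h₁₂', sub_self]
  exact sub_eq_zero.1 h0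

/-- (H0): if the global functions of the two-chart are `R`, every automorphism of a line bundle
is multiplication by a unit of `R`. -/
theorem aut_unit (hN : N.IsLineBundle)
    (hglob : ∀ (b₁ : 𝔹.B₁) (b₂ : 𝔹.B₂), 𝔹.r₁ b₁ = 𝔹.r₂ b₂ →
      ∃ c : R, b₁ = algebraMap R 𝔹.B₁ c ∧ b₂ = algebraMap R 𝔹.B₂ c)
    (hinj : Function.Injective (algebraMap R 𝔹.B₁)) (e : N.Iso N) :
    ∃ c : Rˣ, (∀ n, e.e₁ n = (c : R) • n) ∧ (∀ n, e.e₂ n = (c : R) • n) ∧
      ∀ y, e.e₁₂ y = (c : R) • y := by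
  have i₁ := hN.inv₁
  obtain ⟨u₁, u₂, hu, h₁, h₂, h₁₂⟩ := aut_scalar N hN e
  obtain ⟨v₁, v₂, hv, k₁, k₂, k₁₂⟩ := aut_scalar N hN (isoSymm e)
  obtain ⟨c, rfl, rfl⟩ := hglob u₁ u₂ hu
  obtain ⟨c', rfl, rfl⟩ := hglob v₁ v₂ hv
  have hcc : c * c' = 1 := by
    apply hinj
    apply FaithfulSMul.eq_of_smul_eq_smul (α := N.N₁)
    intro n
    have := e.e₁.apply_symm_apply n
    rw [h₁] at this
    have k := k₁ n
    simp only [isoSymm] at k
    rw [k, smul_smul] at this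
    rw [map_mul, this, map_one, one_smul]
  refine ⟨Units.mkOfMulEqOne c c' hcc, ?_, ?_, ?_⟩
  · intro n; rw [h₁, Units.val_mkOfMulEqOne, algebraMap_smul]
  · intro n; rw [h₂, Units.val_mkOfMulEqOne, algebraMap_smul]
  · intro y; rw [h₁₂, Units.val_mkOfMulEqOne, AlgHom.commutes, algebraMap_smul]

end Fermat.Agent.S25.DEG.V6190.A2h6470




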