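/-
S25 A1 piece (helper6408): the base-changed two-chart `𝒞.chart R` of a curve presentation,
`B_i = R ⊗[k] A_i`, with all `TwoChart` axioms proved.  Core-only.
-/
import Fermat.Agent.S25.Core

set_option autoImplicit false

universe u

namespace Fermat.Agent.S25.DEG.V6190.H6408

open scoped TensorProduct
open Fermat.Agent.S25

variable {k : Type u} [Field k] (𝒞 : CurveData k) (R : Type u) [CommRing R] [Algebra k R]

/-- `R ⊗[k] r₁`. -/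
noncomputable def chartR₁ : (R ⊗[k] 𝒞.A₁) →ₐ[R] (R ⊗[k] 𝒞.A₁₂) :=
  Algebra.TensorProduct.map (AlgHom.id R R) 𝒞.r₁

/-- `R ⊗[k] r₂`. -/
noncomputable def chartR₂ : (R ⊗[k] 𝒞.A₂) →ₐ[R] (R ⊗[k] 𝒞.A₁₂) :=
  Algebra.TensorProduct.map (AlgHom.id R R) 𝒞.r₂

theorem chartR₁_tmul (r : R) (a : 𝒞.A₁) : chartR₁ 𝒞 R (r ⊗ₜ a) = r ⊗ₜ 𝒞.r₁ a := by
  simp [chartR₁]

theorem chartR₂_tmul (r : R) (a : 𝒞.A₂) : chartR₂ 𝒞 R (r ⊗ₜ a) = r ⊗ₜ 𝒞.r₂ a := by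
  simp [chartR₂]

theorem chartR₁_injective : Function.Injective (chartR₁ 𝒞 R) := by
  have h : Function.Injective (LinearMap.lTensor R 𝒞.r₁.toLinearMap) :=
    Module.Flat.lTensor_preserves_injective_linearMap _ 𝒞.inj₁
  intro x y hxy
  apply h
  have e : ∀ z, LinearMap.lTensor R 𝒞.r₁.toLinearMap z = chartR₁ 𝒞 R z := by
    intro z
    induction z using TensorProduct.induction_on with
    | zero => simp
    | tmul r a => simp [chartR₁_tmul]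
    | add a b ha hb => simp [ha, hb]
  rw [e, e, hxy]

theorem chartR₂_injective : Function.Injective (chartR₂ 𝒞 R) := by
  have h : Function.Injective (LinearMap.lTensor R 𝒞.r₂.toLinearMap) :=
    Module.Flat.lTensor_preserves_injective_linearMap _ 𝒞.inj₂
  intro x y hxy
  apply h
  have e : ∀ z, LinearMap.lTensor R 𝒞.r₂.toLinearMap z = chartR₂ 𝒞 R z := by
    intro z
    induction z using TensorProduct.induction_on with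
    | zero => simp
    | tmul r a => simp [chartR₂_tmul]
    | add a b ha hb => simp [ha, hb]
  rw [e, e, hxy]

theorem chart_fg :
    chartR₁ 𝒞 R ((1 : R) ⊗ₜ[k] 𝒞.f) * chartR₂ 𝒞 R ((1 : R) ⊗ₜ[k] 𝒞.g) = 1 := by
  rw [chartR₁_tmul, chartR₂_tmul, Algebra.TensorProduct.tmul_mul_tmul, 𝒞.fg, mul_one]
  rfl

theorem chart_surj₁ (y : R ⊗[k] 𝒞.A₁₂) :
    ∃ (a : R ⊗[k] 𝒞.A₁) (n : ℕ),
      y = chartR₁ 𝒞 R a * chartR₂ 𝒞 R ((1 : R) ⊗ₜ[k] 𝒞.g) ^ n := by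
  have hfg := chart_fg 𝒞 R
  induction y using TensorProduct.induction_on with
  | zero => exact ⟨0, 0, by simp⟩
  | tmul r y =>
    obtain ⟨a, n, rfl⟩ := 𝒞.surj₁ y
    refine ⟨r ⊗ₜ a, n, ?_⟩
    rw [chartR₁_tmul, chartR₂_tmul, Algebra.TensorProduct.tmul_pow, one_pow,
      Algebra.TensorProduct.tmul_mul_tmul, mul_one]
  | add y z hy hz =>
    obtain ⟨a, n, rfl⟩ := hy
    obtain ⟨b, m, rfl⟩ := hz
    refine ⟨a * ((1 : R) ⊗ₜ[k] 𝒞.f) ^ m + b * ((1 : R) ⊗ₜ[k] 𝒞.f) ^ n, n + m, ?_⟩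
    set F := chartR₁ 𝒞 R ((1 : R) ⊗ₜ[k] 𝒞.f) with hF
    set G := chartR₂ 𝒞 R ((1 : R) ⊗ₜ[k] 𝒞.g) with hG
    have hFG : ∀ j : ℕ, F ^ j * G ^ j = 1 := fun j => by rw [← mul_pow, hfg, one_pow]
    rw [map_add, map_mul, map_mul, map_pow, map_pow, ← hF, pow_add]
    calc chartR₁ 𝒞 R a * G ^ n + chartR₁ 𝒞 R b * G ^ m
        = chartR₁ 𝒞 R a * (F ^ m * G ^ m) * G ^ n + chartR₁ 𝒞 R b * (F ^ n * G ^ n) * G ^ m := by
          rw [hFG, hFG, mul_one, mul_one]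
      _ = _ := by ring

theorem chart_surj₂ (y : R ⊗[k] 𝒞.A₁₂) :
    ∃ (a : R ⊗[k] 𝒞.A₂) (n : ℕ),
      y = chartR₂ 𝒞 R a * chartR₁ 𝒞 R ((1 : R) ⊗ₜ[k] 𝒞.f) ^ n := by
  have hfg := chart_fg 𝒞 R
  induction y using TensorProduct.induction_on with
  | zero => exact ⟨0, 0, by simp⟩
  | tmul r y =>
    obtain ⟨a, n, rfl⟩ := 𝒞.surj₂ y
    refine ⟨r ⊗ₜ a, n, ?_⟩
    rw [chartR₁_tmul, chartR₂_tmul, Algebra.TensorProduct.tmul_pow, one_pow,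
      Algebra.TensorProduct.tmul_mul_tmul, mul_one]
  | add y z hy hz =>
    obtain ⟨a, n, rfl⟩ := hy
    obtain ⟨b, m, rfl⟩ := hz
    refine ⟨a * ((1 : R) ⊗ₜ[k] 𝒞.g) ^ m + b * ((1 : R) ⊗ₜ[k] 𝒞.g) ^ n, n + m, ?_⟩
    set F := chartR₁ 𝒞 R ((1 : R) ⊗ₜ[k] 𝒞.f) with hF
    set G := chartR₂ 𝒞 R ((1 : R) ⊗ₜ[k] 𝒞.g) with hG
    have hFG : ∀ j : ℕ, F ^ j * G ^ j = 1 := fun j => by rw [← mul_pow, hfg, one_pow]
    rw [map_add, map_mul, map_mul, map_pow, map_pow, ← hG, pow_add]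
    calc chartR₂ 𝒞 R a * F ^ n + chartR₂ 𝒞 R b * F ^ m
        = chartR₂ 𝒞 R a * (F ^ m * G ^ m) * F ^ n + chartR₂ 𝒞 R b * (F ^ n * G ^ n) * F ^ m := by
          rw [hFG, hFG, mul_one, mul_one]
      _ = _ := by ring

/-- The two-chart `R ⊗[k] A₁`, `R ⊗[k] A₂`, `R ⊗[k] A₁₂` of the base-changed curve. -/
noncomputable def chart : TwoChart R where
  B₁ := R ⊗[k] 𝒞.A₁
  B₂ := R ⊗[k] 𝒞.A₂
  B₁₂ := R ⊗[k] 𝒞.A₁₂
  r₁ := chartR₁ 𝒞 R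
  r₂ := chartR₂ 𝒞 R
  f := (1 : R) ⊗ₜ[k] 𝒞.f
  g := (1 : R) ⊗ₜ[k] 𝒞.g
  fg := chart_fg 𝒞 R
  surj₁ := chart_surj₁ 𝒞 R
  surj₂ := chart_surj₂ 𝒞 R
  ker₁ := fun a ha => ⟨0, by
    rw [pow_zero, one_mul]
    exact chartR₁_injective 𝒞 R (ha.trans (map_zero _).symm)⟩
  ker₂ := fun a ha => ⟨0, by
    rw [pow_zero, one_mul]
    exact chartR₂_injective 𝒞 R (ha.trans (map_zero _).symm)⟩

end Fermat.Agent.S25.DEG.V6190.H6408
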