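/-
S25 A4 instantiation tools (helper7811), Mathlib-only.

* `projective_trans`      : `M` projective over `S`, `S` projective over `R`  ⟹  `M` projective over `R`.
* `finite_quot_of_smul`, `projective_quot_of_smul` :
  `N` finite projective over `B`, `B ⧸ (g)` finite projective over `R`  ⟹
  `N ⧸ Q` finite projective over `R` for every `R`-submodule `Q` with `Q = g N`.
* `smul_injective_of_projective` : a regular element acts injectively on a projective module.
-/
import Mathlib

set_option autoImplicit false

namespace Fermat.Agent.S25.DEG.V6190.H7811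

open scoped TensorProduct

section Trans

variable (R S M : Type*) [CommRing R] [CommRing S] [Algebra R S] [AddCommGroup M] [Module R M]
  [Module S M] [IsScalarTower R S M]

/-- Transitivity of projectivity along an algebra that is projective as a module. -/
theorem projective_trans [Module.Projective R S] [Module.Projective S M] :
    Module.Projective R M := by
  classical
  obtain ⟨s, hs⟩ := (inferInstance : Module.Projective S M)
  have hfree : Module.Projective R (M →₀ S) :=
    Module.Projective.of_equiv' (finsuppLequivDFinsupp (M := S) (ι := M) R).symm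
  exact Module.Projective.of_split (s.restrictScalars R)
    ((Finsupp.linearCombination S (id : M → M)).restrictScalars R)
    (LinearMap.ext fun x => hs x)

end Trans

section Quot

variable (R : Type*) {B N : Type*} [CommRing R] [CommRing B] [Algebra R B] [AddCommGroup N]
  [Module R N] [Module B N] [IsScalarTower R B N]

/-- The `R`-linear identification `N ⧸ Q ≃ (B ⧸ (g)) ⊗[B] N` when `Q = g N`. -/
noncomputable def quotEquivTensor (g : B) (Q : Submodule R N)
    (hQ : ∀ n : N, n ∈ Q ↔ ∃ m : N, g • m = n) :
    (N ⧸ Q) ≃ₗ[R] (B ⧸ Ideal.span {g}) ⊗[B] N :=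
  have hQ' : Q = ((Ideal.span {g} : Ideal B) • (⊤ : Submodule B N)).restrictScalars R := by
    ext n
    rw [hQ, Submodule.restrictScalars_mem, Submodule.ideal_span_singleton_smul,
      Submodule.mem_smul_pointwise_iff_exists]
    constructor
    · rintro ⟨m, rfl⟩; exact ⟨m, trivial, rfl⟩
    · rintro ⟨m, -, rfl⟩; exact ⟨m, rfl⟩
  (Submodule.quotEquivOfEq _ _ hQ').trans <|
    (Submodule.Quotient.restrictScalarsEquiv R
      ((Ideal.span {g} : Ideal B) • (⊤ : Submodule B N))).trans <|
    ((TensorProduct.quotTensorEquivQuotSMul N (Ideal.span {g} : Ideal B)).symm).restrictScalars R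

variable {R}

theorem finite_quot_of_smul [Module.Finite B N] (g : B)
    [Module.Finite R (B ⧸ Ideal.span {g})] (Q : Submodule R N)
    (hQ : ∀ n : N, n ∈ Q ↔ ∃ m : N, g • m = n) : Module.Finite R (N ⧸ Q) := by
  have h1 : Module.Finite (B ⧸ Ideal.span {g}) ((B ⧸ Ideal.span {g}) ⊗[B] N) := inferInstance
  have h2 : Module.Finite R ((B ⧸ Ideal.span {g}) ⊗[B] N) :=
    Module.Finite.trans (B ⧸ Ideal.span {g}) _
  exact Module.Finite.equiv (quotEquivTensor R g Q hQ).symm

theorem projective_quot_of_smul [Module.Projective B N] (g : B)
    [Module.Projective R (B ⧸ Ideal.span {g})] (Q : Submodule R N)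
    (hQ : ∀ n : N, n ∈ Q ↔ ∃ m : N, g • m = n) : Module.Projective R (N ⧸ Q) := by
  have h1 : Module.Projective (B ⧸ Ideal.span {g}) ((B ⧸ Ideal.span {g}) ⊗[B] N) := inferInstance
  have h2 : Module.Projective R ((B ⧸ Ideal.span {g}) ⊗[B] N) :=
    projective_trans R (B ⧸ Ideal.span {g}) _
  exact Module.Projective.of_equiv (quotEquivTensor R g Q hQ).symm

/-- A regular element of `B` acts injectively on every projective (indeed flat) `B`-module. -/
theorem smul_injective_of_projective [Module.Projective B N] {g : B}
    (hg : Function.Injective fun b : B => g * b) : Function.Injective fun n : N => g • n := by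
  have hreg : IsRegular g := by
    refine ⟨hg, ?_⟩
    intro a b hab
    apply hg
    simpa [mul_comm] using hab
  exact Module.Flat.isSMulRegular_of_isRegular (M := N) hreg

end Quot

end Fermat.Agent.S25.DEG.V6190.H7811
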