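/-
S25 A4 instantiation (helper7811): the hypotheses of the Core-form "E_deg" (degree locally constant,
helper4031 plan, items (b) and (d)) for line bundles on the base-changed chart `H6408.chart 𝒞 R`.

For `N : GluedModule (H6408.chart 𝒞 R)` with `N.IsLineBundle`:
* `projective_N₁ / projective_N₂ / projective_N₁₂` : the three chart modules are projective over `R`;
* `g_smul_injective / f_smul_injective`            : `g` (resp. `f`) acts injectively on `N₂` (`N₁`);
* `finite_quot_g_smul / projective_quot_g_smul`    : `N₂ ⧸ g N₂` is finite projective over `R`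
  (for any `R`-submodule `Q` with `Q = g N₂`), and the same for `f` on `N₁`.
Imports: Core (helper5425), H6408/Chart (helper6408), A1/Basic (helper7630), all verbatim.
-/
import Fermat.Agent.S25.DEG.V6190.ProjTrans
import Fermat.Agent.S25.DEG.V6190.Chart
import Fermat.Agent.S25.A1.Basic

set_option autoImplicit false
set_option linter.style.haveILetI false

universe u

namespace Fermat.Agent.S25.DEG.V6190.H7811

open scoped TensorProduct
open Fermat.Agent.S25

/-! ### Pure algebra: `A ⧸ (x)` is finite over `k` when `A` is finite over `k[x]` -/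

section FiniteQuot

variable {k A : Type*} [Field k] [CommRing A] [Algebra k A]

theorem finite_quot_span_singleton (x : A) [Module.Finite (Algebra.adjoin k ({x} : Set A)) A] :
    Module.Finite k (A ⧸ Ideal.span ({x} : Set A)) := by
  classical
  obtain ⟨s, hs⟩ :=
    (Module.Finite.fg_top : (⊤ : Submodule (Algebra.adjoin k ({x} : Set A)) A).FG)
  let π : A →ₗ[k] A ⧸ Ideal.span ({x} : Set A) :=
    (Ideal.Quotient.mkₐ k (Ideal.span ({x} : Set A))).toLinearMap
  let W : Submodule k (A ⧸ Ideal.span ({x} : Set A)) := Submodule.span k (π '' (s : Set A))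
  have hπx : ∀ a : A, π (x * a) = 0 := by
    intro a
    change Ideal.Quotient.mk _ (x * a) = 0
    rw [Ideal.Quotient.eq_zero_iff_mem]
    exact Ideal.mul_mem_right _ _ (Ideal.subset_span rfl)
  have hsmul : ∀ b : A, b ∈ Algebra.adjoin k ({x} : Set A) → ∀ a : A, π a ∈ W → π (b * a) ∈ W := by
    intro b hb
    induction hb using Algebra.adjoin_induction with
    | mem y hy =>
      rw [Set.mem_singleton_iff] at hy
      subst hy
      intro a _
      rw [hπx]
      exact W.zero_mem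
    | algebraMap r =>
      intro a ha
      rw [← Algebra.smul_def, map_smul]
      exact W.smul_mem r ha
    | add y z _ _ hy hz =>
      intro a ha
      rw [add_mul, map_add]
      exact W.add_mem (hy a ha) (hz a ha)
    | mul y z _ _ hy hz =>
      intro a ha
      rw [mul_assoc]
      exact hy _ (hz a ha)
  have hall : ∀ a : A, π a ∈ W := by
    intro a
    have hmem : a ∈ Submodule.span (Algebra.adjoin k ({x} : Set A)) (s : Set A) := by
      rw [hs]; trivial
    induction hmem using Submodule.span_induction with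
    | mem y hy => exact Submodule.subset_span ⟨y, hy, rfl⟩
    | zero => rw [map_zero]; exact W.zero_mem
    | add y z _ _ hy hz => rw [map_add]; exact W.add_mem hy hz
    | smul b y _ hy => exact hsmul b.1 b.2 y hy
  refine ⟨⟨s.image π, ?_⟩⟩
  rw [eq_top_iff]
  rintro y -
  obtain ⟨a, rfl⟩ := Ideal.Quotient.mk_surjective y
  rw [Finset.coe_image]
  exact hall a

end FiniteQuot

/-! ### The base-changed chart algebras -/

section ChartAlg

variable {k : Type u} [Field k] (R : Type u) [CommRing R] [Algebra k R]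
  (A : Type u) [CommRing A] [Algebra k A]

/-- `(R ⊗ A) ⧸ (1 ⊗ x) ≃ R ⊗ (A ⧸ (x))`, `R`-linearly. -/
noncomputable def tensorQuotEquiv (x : A) :
    ((R ⊗[k] A) ⧸ Ideal.span ({(1 : R) ⊗ₜ[k] x} : Set (R ⊗[k] A))) ≃ₗ[R]
      R ⊗[k] (A ⧸ Ideal.span ({x} : Set A)) :=
  have h : Ideal.span ({(1 : R) ⊗ₜ[k] x} : Set (R ⊗[k] A)) =
      (Ideal.span ({x} : Set A)).map
        (Algebra.TensorProduct.includeRight (R := k) (A := R) (B := A)) := by
    rw [Ideal.map_span, Set.image_singleton]
    rfl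
  ((Ideal.quotientEquivAlgOfEq R h).toLinearEquiv).trans
    (Algebra.TensorProduct.tensorQuotientEquiv (R := k) R A R
      (Ideal.span ({x} : Set A))).symm.toLinearEquiv

theorem chart_quot_finite (x : A) [Module.Finite (Algebra.adjoin k ({x} : Set A)) A] :
    Module.Finite R ((R ⊗[k] A) ⧸ Ideal.span ({(1 : R) ⊗ₜ[k] x} : Set (R ⊗[k] A))) := by
  haveI := finite_quot_span_singleton (k := k) x
  exact Module.Finite.equiv (tensorQuotEquiv R A x).symm

theorem chart_quot_projective (x : A) :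
    Module.Projective R ((R ⊗[k] A) ⧸ Ideal.span ({(1 : R) ⊗ₜ[k] x} : Set (R ⊗[k] A))) :=
  Module.Projective.of_equiv (tensorQuotEquiv R A x).symm

theorem chart_mul_injective [IsDomain A] {x : A} (hx : x ≠ 0) :
    Function.Injective fun b : R ⊗[k] A => ((1 : R) ⊗ₜ[k] x) * b := by
  have hinj : Function.Injective (LinearMap.mulLeft k x) := fun a b hab =>
    mul_left_cancel₀ hx hab
  have h := Module.Flat.lTensor_preserves_injective_linearMap (M := R) (LinearMap.mulLeft k x) hinj
  have e : ∀ b : R ⊗[k] A, ((1 : R) ⊗ₜ[k] x) * b = LinearMap.lTensor R (LinearMap.mulLeft k x) b := by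
    intro b
    induction b using TensorProduct.induction_on with
    | zero => simp
    | tmul r a => simp [Algebra.TensorProduct.tmul_mul_tmul]
    | add a b ha hb => rw [mul_add, ha, hb, map_add]
  intro a b hab
  apply h
  rw [← e, ← e]
  exact hab

end ChartAlg

/-! ### Curve data -/

section Curve

variable {k : Type u} [Field k] (𝒞 : CurveData k)

theorem r₂g_ne_zero : 𝒞.r₂ 𝒞.g ≠ 0 := by
  haveI := 𝒞.dom₁
  intro h
  have h1 : (1 : 𝒞.A₁₂) = 0 := by rw [← 𝒞.fg, h, mul_zero]
  have h2 : 𝒞.r₁ 1 = 𝒞.r₁ 0 := by rw [map_one, map_zero, h1]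
  exact one_ne_zero (𝒞.inj₁ h2)

theorem g_ne_zero : 𝒞.g ≠ 0 := fun h => r₂g_ne_zero 𝒞 (by rw [h, map_zero])

theorem f_ne_zero : 𝒞.f ≠ 0 := by
  intro h
  have h1 : (1 : 𝒞.A₁₂) = 0 := by rw [← 𝒞.fg, h, map_zero, zero_mul]
  exact r₂g_ne_zero 𝒞 (by rw [← mul_one (𝒞.r₂ 𝒞.g), h1, mul_zero])

variable (R : Type u) [CommRing R] [Algebra k R] (N : GluedModule (H6408.chart 𝒞 R))

/-- `N₁` of a line bundle on the chart over `R` is a projective `R`-module. -/
theorem projective_N₁ (hN : N.IsLineBundle) : Module.Projective R N.N₁ := by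
  haveI := hN.inv₁
  haveI : Module.Projective R (H6408.chart 𝒞 R).B₁ :=
    inferInstanceAs (Module.Projective R (R ⊗[k] 𝒞.A₁))
  exact projective_trans R (H6408.chart 𝒞 R).B₁ N.N₁

/-- `N₂` of a line bundle on the chart over `R` is a projective `R`-module. -/
theorem projective_N₂ (hN : N.IsLineBundle) : Module.Projective R N.N₂ := by
  haveI := hN.inv₂
  haveI : Module.Projective R (H6408.chart 𝒞 R).B₂ :=
    inferInstanceAs (Module.Projective R (R ⊗[k] 𝒞.A₂))
  exact projective_trans R (H6408.chart 𝒞 R).B₂ N.N₂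

/-- `N₁₂` of a line bundle on the chart over `R` is a projective `R`-module. -/
theorem projective_N₁₂ (hN : N.IsLineBundle) : Module.Projective R N.N₁₂ := by
  haveI := hN.inv₁
  haveI : Module.Projective R (H6408.chart 𝒞 R).B₁₂ :=
    inferInstanceAs (Module.Projective R (R ⊗[k] 𝒞.A₁₂))
  haveI : Module.Projective (H6408.chart 𝒞 R).B₁₂ N.N₁₂ := by
    letI := (H6408.chart 𝒞 R).algebra₁
    letI := N.module₁
    haveI := N.isScalarTower₁
    haveI := (H6408.chart 𝒞 R).isLocalization₁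
    haveI := N.isLocalizedModule₁
    exact Module.projective_of_isLocalizedModule (Submonoid.powers (H6408.chart 𝒞 R).f) N.ι₁ₗ
  exact projective_trans R (H6408.chart 𝒞 R).B₁₂ N.N₁₂

/-- `g` acts injectively on `N₂`. -/
theorem g_smul_injective (hN : N.IsLineBundle) :
    Function.Injective fun n : N.N₂ => (H6408.chart 𝒞 R).g • n := by
  haveI := hN.inv₂
  haveI := 𝒞.dom₂
  exact smul_injective_of_projective (B := (H6408.chart 𝒞 R).B₂)
    (chart_mul_injective R 𝒞.A₂ (g_ne_zero 𝒞))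

/-- `f` acts injectively on `N₁`. -/
theorem f_smul_injective (hN : N.IsLineBundle) :
    Function.Injective fun n : N.N₁ => (H6408.chart 𝒞 R).f • n := by
  haveI := hN.inv₁
  haveI := 𝒞.dom₁
  exact smul_injective_of_projective (B := (H6408.chart 𝒞 R).B₁)
    (chart_mul_injective R 𝒞.A₁ (f_ne_zero 𝒞))

/-- `N₂ ⧸ g N₂` is a finite `R`-module. -/
theorem finite_quot_g_smul (hN : N.IsLineBundle) (Q : Submodule R N.N₂)
    (hQ : ∀ n : N.N₂, n ∈ Q ↔ ∃ m : N.N₂, (H6408.chart 𝒞 R).g • m = n) :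
    Module.Finite R (N.N₂ ⧸ Q) := by
  haveI := hN.inv₂
  haveI := 𝒞.fin₂
  haveI : Module.Finite R ((H6408.chart 𝒞 R).B₂ ⧸ Ideal.span {(H6408.chart 𝒞 R).g}) :=
    chart_quot_finite R 𝒞.A₂ 𝒞.g
  exact finite_quot_of_smul (B := (H6408.chart 𝒞 R).B₂) (H6408.chart 𝒞 R).g Q hQ

/-- `N₂ ⧸ g N₂` is a projective `R`-module. -/
theorem projective_quot_g_smul (hN : N.IsLineBundle) (Q : Submodule R N.N₂)
    (hQ : ∀ n : N.N₂, n ∈ Q ↔ ∃ m : N.N₂, (H6408.chart 𝒞 R).g • m = n) :
    Module.Projective R (N.N₂ ⧸ Q) := by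
  haveI := hN.inv₂
  haveI : Module.Projective R ((H6408.chart 𝒞 R).B₂ ⧸ Ideal.span {(H6408.chart 𝒞 R).g}) :=
    chart_quot_projective R 𝒞.A₂ 𝒞.g
  exact projective_quot_of_smul (B := (H6408.chart 𝒞 R).B₂) (H6408.chart 𝒞 R).g Q hQ

/-- `N₁ ⧸ f N₁` is a finite `R`-module. -/
theorem finite_quot_f_smul (hN : N.IsLineBundle) (Q : Submodule R N.N₁)
    (hQ : ∀ n : N.N₁, n ∈ Q ↔ ∃ m : N.N₁, (H6408.chart 𝒞 R).f • m = n) :
    Module.Finite R (N.N₁ ⧸ Q) := by
  haveI := hN.inv₁
  haveI := 𝒞.fin₁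
  haveI : Module.Finite R ((H6408.chart 𝒞 R).B₁ ⧸ Ideal.span {(H6408.chart 𝒞 R).f}) :=
    chart_quot_finite R 𝒞.A₁ 𝒞.f
  exact finite_quot_of_smul (B := (H6408.chart 𝒞 R).B₁) (H6408.chart 𝒞 R).f Q hQ

/-- `N₁ ⧸ f N₁` is a projective `R`-module. -/
theorem projective_quot_f_smul (hN : N.IsLineBundle) (Q : Submodule R N.N₁)
    (hQ : ∀ n : N.N₁, n ∈ Q ↔ ∃ m : N.N₁, (H6408.chart 𝒞 R).f • m = n) :
    Module.Projective R (N.N₁ ⧸ Q) := by
  haveI := hN.inv₁
  haveI : Module.Projective R ((H6408.chart 𝒞 R).B₁ ⧸ Ideal.span {(H6408.chart 𝒞 R).f}) :=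
    chart_quot_projective R 𝒞.A₁ 𝒞.f
  exact projective_quot_of_smul (B := (H6408.chart 𝒞 R).B₁) (H6408.chart 𝒞 R).f Q hQ

end Curve

end Fermat.Agent.S25.DEG.V6190.H7811
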