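/-
S25 package A4 (helper4031): fibres of split exact sequences (Mathlib only).

* an injective map with projective cokernel stays injective after base change, and its cokernel
  commutes with base change;
* the kernel of a surjection onto a projective module commutes with base change;
* `finrank κ (κ ⊗[R] M) = rankAtStalk M (ker (R → κ))` for `M` finite projective.
-/
import Mathlib

set_option autoImplicit false
set_option linter.style.haveILetI false

namespace Fermat.Agent.S25.DEG.V6190.A4

open Module TensorProduct

section

variable {R : Type*} [CommRing R] {P P' Q : Type*} [AddCommGroup P] [Module R P]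
  [AddCommGroup P'] [Module R P'] [AddCommGroup Q] [Module R Q]

/-- An injective map with projective cokernel has a retraction. -/
theorem exists_retraction_of_projective_coker (m : P →ₗ[R] P') (hm : Function.Injective m)
    [Module.Projective R (P' ⧸ LinearMap.range m)] :
    ∃ r : P' →ₗ[R] P, r ∘ₗ m = LinearMap.id := by
  obtain ⟨s, hs⟩ := Module.projective_lifting_property (LinearMap.range m).mkQ LinearMap.id
    (Submodule.mkQ_surjective _)
  have hs' : ∀ c, (LinearMap.range m).mkQ (s c) = c := fun c => LinearMap.congr_fun hs c
  let t : P' →ₗ[R] P' := LinearMap.id - s ∘ₗ (LinearMap.range m).mkQ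
  have ht : ∀ x, t x ∈ LinearMap.range m := by
    intro x
    rw [← Submodule.Quotient.mk_eq_zero, ← Submodule.mkQ_apply]
    simp only [t, LinearMap.sub_apply, LinearMap.id_apply, LinearMap.comp_apply, map_sub, hs',
      sub_self]
  let e := LinearEquiv.ofInjective m hm
  refine ⟨e.symm.toLinearMap ∘ₗ t.codRestrict (LinearMap.range m) ht, ?_⟩
  apply LinearMap.ext
  intro p
  rw [LinearMap.comp_apply, LinearMap.comp_apply, LinearMap.id_apply, LinearEquiv.coe_coe,
    LinearEquiv.symm_apply_eq]
  apply Subtype.ext
  have h0 : (LinearMap.range m).mkQ (m p) = 0 := by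
    rw [Submodule.mkQ_apply, Submodule.Quotient.mk_eq_zero]
    exact ⟨p, rfl⟩
  change t (m p) = m p
  simp only [t, LinearMap.sub_apply, LinearMap.id_apply, LinearMap.comp_apply, h0, map_zero,
    sub_zero]

variable (κ : Type*) [CommRing κ] [Algebra R κ]

/-- An injective map with projective cokernel stays injective after base change. -/
theorem baseChange_injective_of_projective_coker (m : P →ₗ[R] P') (hm : Function.Injective m)
    [Module.Projective R (P' ⧸ LinearMap.range m)] :
    Function.Injective (m.baseChange κ) := by
  obtain ⟨r, hr⟩ := exists_retraction_of_projective_coker m hm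
  have h : r.baseChange κ ∘ₗ m.baseChange κ = LinearMap.id := by
    rw [← LinearMap.baseChange_comp, hr, LinearMap.baseChange_id]
  exact Function.LeftInverse.injective (g := r.baseChange κ) fun x => LinearMap.congr_fun h x

/-- The cokernel commutes with base change. -/
noncomputable def cokerBaseChangeEquiv (m : P →ₗ[R] P') :
    ((κ ⊗[R] P') ⧸ LinearMap.range (m.baseChange κ)) ≃ₗ[κ] κ ⊗[R] (P' ⧸ LinearMap.range m) :=
  have hsurj : Function.Surjective ((LinearMap.range m).mkQ.baseChange κ) :=
    LinearMap.baseChange_surjective κ (Submodule.mkQ_surjective _)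
  have hex : Function.Exact (m.lTensor κ) ((LinearMap.range m).mkQ.lTensor κ) :=
    lTensor_exact κ (LinearMap.exact_map_mkQ_range m) (Submodule.mkQ_surjective _)
  have hker : LinearMap.range (m.baseChange κ) =
      LinearMap.ker ((LinearMap.range m).mkQ.baseChange κ) := by
    ext x
    rw [LinearMap.mem_ker]
    exact (hex x).symm
  (Submodule.quotEquivOfEq _ _ hker).trans
    (((LinearMap.range m).mkQ.baseChange κ).quotKerEquivOfSurjective hsurj)

/-- The kernel of a surjection onto a projective module is a direct summand. -/
theorem exists_retraction_ker_of_projective (d : P →ₗ[R] Q) (hd : Function.Surjective d)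
    [Module.Projective R Q] :
    ∃ π : P →ₗ[R] LinearMap.ker d, π ∘ₗ (LinearMap.ker d).subtype = LinearMap.id := by
  obtain ⟨s, hs⟩ := Module.projective_lifting_property d LinearMap.id hd
  have hs' : ∀ c, d (s c) = c := fun c => LinearMap.congr_fun hs c
  have hmem : ∀ x : P, ((LinearMap.id : P →ₗ[R] P) - s ∘ₗ d) x ∈ LinearMap.ker d := by
    intro x
    rw [LinearMap.mem_ker, LinearMap.sub_apply, map_sub, LinearMap.id_apply,
      LinearMap.comp_apply, hs', sub_self]
  refine ⟨((LinearMap.id : P →ₗ[R] P) - s ∘ₗ d).codRestrict (LinearMap.ker d) hmem, ?_⟩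
  apply LinearMap.ext
  intro x
  apply Subtype.ext
  have hx : d (x : P) = 0 := x.2
  simp [hx]

/-- The kernel of a surjection of projective modules is projective. -/
theorem projective_ker_of_surjective (d : P →ₗ[R] Q) (hd : Function.Surjective d)
    [Module.Projective R Q] [Module.Projective R P] : Module.Projective R (LinearMap.ker d) := by
  obtain ⟨π, hπ⟩ := exists_retraction_ker_of_projective d hd
  exact Module.Projective.of_split (LinearMap.ker d).subtype π hπ

/-- The kernel of a surjection onto a projective module commutes with base change. -/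
noncomputable def kerBaseChangeEquiv (d : P →ₗ[R] Q) (hd : Function.Surjective d)
    [Module.Projective R Q] :
    (κ ⊗[R] LinearMap.ker d) ≃ₗ[κ] LinearMap.ker (d.baseChange κ) :=
  have hinj : Function.Injective ((LinearMap.ker d).subtype.baseChange κ) := by
    obtain ⟨π, hπ⟩ := exists_retraction_ker_of_projective d hd
    have h : π.baseChange κ ∘ₗ (LinearMap.ker d).subtype.baseChange κ = LinearMap.id := by
      rw [← LinearMap.baseChange_comp, hπ, LinearMap.baseChange_id]
    exact Function.LeftInverse.injective (g := π.baseChange κ) fun x => LinearMap.congr_fun h x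
  have hex : Function.Exact ((LinearMap.ker d).subtype.lTensor κ) (d.lTensor κ) :=
    lTensor_exact κ (LinearMap.exact_subtype_ker_map d) hd
  have hrange : LinearMap.range ((LinearMap.ker d).subtype.baseChange κ) =
      LinearMap.ker (d.baseChange κ) := by
    ext x
    rw [LinearMap.mem_ker]
    exact (hex x).symm
  (LinearEquiv.ofInjective _ hinj).trans (LinearEquiv.ofEq _ _ hrange)

end

section Rank

variable {R : Type*} [CommRing R] (M : Type*) [AddCommGroup M] [Module R M]
  [Module.Finite R M] [Module.Projective R M] (κ : Type*) [Field κ] [Algebra R κ]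

/-- The dimension of the fibre of a finite projective module at a field-valued point is the
rank at the corresponding prime. -/
theorem finrank_tensor_eq_rankAtStalk :
    finrank κ (κ ⊗[R] M) = rankAtStalk M (PrimeSpectrum.comap (algebraMap R κ) ⊥) := by
  have h1 := rankAtStalk_baseChange (R := R) (M := M) (S := κ) ⊥
  rw [← h1, rankAtStalk_eq_finrank_of_free]
  rfl

end Rank

end Fermat.Agent.S25.DEG.V6190.A4
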