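/-
S25 package A4 (helper4031): Fredholm index of a linear map over a field.
Mathlib only.  `ind (g ∘ f) = ind g - dim coker f` for `f` injective with finite-dimensional
cokernel; this is the linear algebra behind the twist formula `χ(N⟨n+1⟩) = χ(N⟨n⟩) + n₀`.
-/
import Mathlib

set_option autoImplicit false
set_option linter.style.haveILetI false

namespace Fermat.Agent.S25.DEG.V6190.A4

open Module

section Index

variable {κ : Type*} [Field κ] {U V W : Type*} [AddCommGroup U] [Module κ U]
  [AddCommGroup V] [Module κ V] [AddCommGroup W] [Module κ W]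

/-- A linear map with finite-dimensional kernel and cokernel. -/
def IsFred (f : V →ₗ[κ] W) : Prop :=
  FiniteDimensional κ (LinearMap.ker f) ∧ FiniteDimensional κ (W ⧸ LinearMap.range f)

/-- The index `dim ker - dim coker` of a linear map. -/
noncomputable def ind (f : V →ₗ[κ] W) : ℤ :=
  (finrank κ (LinearMap.ker f) : ℤ) - (finrank κ (W ⧸ LinearMap.range f) : ℤ)

/-- Composition with an injective map of finite-dimensional cokernel: the composite is Fredholm
and its index drops by the dimension of the cokernel. -/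
theorem isFred_comp_and_ind (f : U →ₗ[κ] V) (g : V →ₗ[κ] W) (hf : Function.Injective f)
    [FiniteDimensional κ (V ⧸ LinearMap.range f)] (hg : IsFred g) :
    IsFred (g ∘ₗ f) ∧ ind (g ∘ₗ f) = ind g - (finrank κ (V ⧸ LinearMap.range f) : ℤ) := by
  classical
  obtain ⟨hK, hCg⟩ := hg
  haveI := hK
  haveI := hCg
  -- notation
  set K := LinearMap.ker g with hKdef
  set q := (LinearMap.range f).mkQ with hq
  set ρ : K →ₗ[κ] (V ⧸ LinearMap.range f) := q ∘ₗ K.subtype with hρ
  -- the map `ker (g ∘ f) → ker ρ`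
  have hmem : ∀ x : LinearMap.ker (g ∘ₗ f), f x ∈ K := fun x => by
    have := x.2
    rw [LinearMap.mem_ker, LinearMap.comp_apply] at this
    exact LinearMap.mem_ker.mpr this
  let a : LinearMap.ker (g ∘ₗ f) →ₗ[κ] K :=
    (f ∘ₗ (LinearMap.ker (g ∘ₗ f)).subtype).codRestrict K hmem
  have ha_inj : Function.Injective a := by
    intro x y hxy
    have h1 : f x = f y := congrArg Subtype.val hxy
    exact Subtype.ext (hf h1)
  have ha_range : LinearMap.range a = LinearMap.ker ρ := by
    ext k
    constructor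
    · rintro ⟨x, rfl⟩
      rw [LinearMap.mem_ker, hρ, LinearMap.comp_apply, hq, Submodule.mkQ_apply,
        Submodule.Quotient.mk_eq_zero]
      exact ⟨x, rfl⟩
    · intro hk
      rw [LinearMap.mem_ker, hρ, LinearMap.comp_apply, hq, Submodule.mkQ_apply,
        Submodule.Quotient.mk_eq_zero] at hk
      obtain ⟨u, hu⟩ := hk
      have hu' : u ∈ LinearMap.ker (g ∘ₗ f) := by
        rw [LinearMap.mem_ker, LinearMap.comp_apply, hu]
        exact k.2
      exact ⟨⟨u, hu'⟩, Subtype.ext hu⟩
  have e1 : LinearMap.ker (g ∘ₗ f) ≃ₗ[κ] LinearMap.ker ρ :=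
    (LinearEquiv.ofInjective a ha_inj).trans (LinearEquiv.ofEq _ _ ha_range)
  haveI hfin1 : FiniteDimensional κ (LinearMap.ker (g ∘ₗ f)) :=
    Module.Finite.equiv e1.symm
  have h1 : finrank κ (LinearMap.ker (g ∘ₗ f)) = finrank κ (LinearMap.ker ρ) :=
    LinearEquiv.finrank_eq e1
  have h2 : finrank κ (LinearMap.range ρ) + finrank κ (LinearMap.ker ρ) = finrank κ K :=
    LinearMap.finrank_range_add_finrank_ker ρ
  -- the induced map on cokernels
  have hle : LinearMap.range f ≤ LinearMap.ker ((LinearMap.range (g ∘ₗ f)).mkQ ∘ₗ g) := by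
    rintro _ ⟨u, rfl⟩
    rw [LinearMap.mem_ker, LinearMap.comp_apply, Submodule.mkQ_apply,
      Submodule.Quotient.mk_eq_zero]
    exact ⟨u, rfl⟩
  let gbar : (V ⧸ LinearMap.range f) →ₗ[κ] (W ⧸ LinearMap.range (g ∘ₗ f)) :=
    (LinearMap.range f).liftQ ((LinearMap.range (g ∘ₗ f)).mkQ ∘ₗ g) hle
  have hgbar : ∀ v : V, gbar (q v) = (LinearMap.range (g ∘ₗ f)).mkQ (g v) := fun v => rfl
  have hker_gbar : LinearMap.ker gbar = LinearMap.range ρ := by
    ext c
    obtain ⟨v, rfl⟩ := Submodule.mkQ_surjective _ c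
    rw [← hq, LinearMap.mem_ker, hgbar, Submodule.mkQ_apply, Submodule.Quotient.mk_eq_zero]
    constructor
    · rintro ⟨u, hu⟩
      have hu' : g (f u) = g v := hu
      have hk : v - f u ∈ K := by
        rw [hKdef, LinearMap.mem_ker, map_sub, hu', sub_self]
      refine ⟨⟨v - f u, hk⟩, ?_⟩
      rw [hρ, LinearMap.comp_apply, Submodule.subtype_apply, map_sub]
      have : q (f u) = 0 := by
        rw [hq, Submodule.mkQ_apply, Submodule.Quotient.mk_eq_zero]
        exact ⟨u, rfl⟩
      rw [this, sub_zero]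
    · rintro ⟨k, hk⟩
      rw [hρ, LinearMap.comp_apply, Submodule.subtype_apply] at hk
      have hd : (k : V) - v ∈ LinearMap.range f := by
        rw [← Submodule.Quotient.mk_eq_zero, Submodule.Quotient.mk_sub, sub_eq_zero]
        exact hk
      obtain ⟨u, hu⟩ := hd
      refine ⟨-u, ?_⟩
      have hk0 : g (k : V) = 0 := k.2
      have : v = (k : V) - f u := by rw [hu]; abel
      rw [LinearMap.comp_apply, map_neg, map_neg, this, map_sub, hk0, zero_sub]
  have h3 : finrank κ (LinearMap.range gbar) + finrank κ (LinearMap.ker gbar) =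
      finrank κ (V ⧸ LinearMap.range f) :=
    LinearMap.finrank_range_add_finrank_ker gbar
  -- the projection between the cokernels
  have hle2 : LinearMap.range (g ∘ₗ f) ≤ LinearMap.range g := by
    rintro _ ⟨u, rfl⟩
    exact ⟨f u, rfl⟩
  let π : (W ⧸ LinearMap.range (g ∘ₗ f)) →ₗ[κ] (W ⧸ LinearMap.range g) :=
    Submodule.mapQ _ _ LinearMap.id (by simpa using hle2)
  have hπ : ∀ w : W, π ((LinearMap.range (g ∘ₗ f)).mkQ w) = (LinearMap.range g).mkQ w :=
    fun w => rfl
  have hπ_surj : Function.Surjective π := by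
    intro c
    obtain ⟨w, rfl⟩ := Submodule.mkQ_surjective _ c
    exact ⟨_, hπ w⟩
  have hker_π : LinearMap.ker π = LinearMap.range gbar := by
    ext c
    obtain ⟨w, rfl⟩ := Submodule.mkQ_surjective _ c
    rw [LinearMap.mem_ker, hπ, Submodule.mkQ_apply, Submodule.Quotient.mk_eq_zero]
    constructor
    · rintro ⟨v, rfl⟩
      exact ⟨q v, hgbar v⟩
    · rintro ⟨c', hc'⟩
      obtain ⟨v, rfl⟩ := Submodule.mkQ_surjective _ c'
      rw [← hq, hgbar, Submodule.mkQ_apply, Submodule.mkQ_apply, Submodule.Quotient.eq] at hc'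
      obtain ⟨u, hu⟩ := hc'
      refine ⟨v - f u, ?_⟩
      have hu' : g (f u) = g v - w := hu
      rw [map_sub, hu']
      abel
  haveI hfinker : FiniteDimensional κ (LinearMap.ker π) := by
    rw [hker_π]
    infer_instance
  haveI hfinquot : FiniteDimensional κ
      ((W ⧸ LinearMap.range (g ∘ₗ f)) ⧸ LinearMap.ker π) :=
    Module.Finite.equiv (π.quotKerEquivOfSurjective hπ_surj).symm
  haveI hfin2 : FiniteDimensional κ (W ⧸ LinearMap.range (g ∘ₗ f)) :=
    Module.Finite.of_submodule_quotient (LinearMap.ker π)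
  have h4 : finrank κ (LinearMap.range π) + finrank κ (LinearMap.ker π) =
      finrank κ (W ⧸ LinearMap.range (g ∘ₗ f)) :=
    LinearMap.finrank_range_add_finrank_ker π
  have h5 : finrank κ (LinearMap.range π) = finrank κ (W ⧸ LinearMap.range g) := by
    rw [LinearMap.range_eq_top.mpr hπ_surj]
    exact finrank_top κ _
  refine ⟨⟨hfin1, hfin2⟩, ?_⟩
  rw [hker_gbar] at h3
  rw [hker_π] at h4
  unfold ind
  rw [h1]
  rw [← hKdef]
  omega

end Index

end Fermat.Agent.S25.DEG.V6190.A4
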