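/-
S25 package A4 (helper4031): twisting kills `H¹`, uniformly over any base ring.

For a glued module `N` over a two-chart over an arbitrary commutative ring `R` with `H¹(N)` finitely
generated (item (F) of A2), `H¹(N⟨n⟩) = 0` for all `n ≥ n₀`.  Also the factorisation
`d_{N⟨n+1⟩} ∘ (id × g) = d_{N⟨n⟩}` of the Čech differentials, which is the source of the twist
formula for Euler characteristics.
-/
import Fermat.Agent.S25.A1.Basic

set_option autoImplicit false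

universe u

namespace Fermat.Agent.S25.DEG.V6190.A4

open Fermat.Agent.S25

variable {R : Type u} [CommRing R] {𝔹 : TwoChart R} (N : GluedModule 𝔹)

/-- Multiplication by `g` on the second chart module, as an `R`-linear map. -/
def gmul : N.N₂ →ₗ[R] N.N₂ where
  toFun b := 𝔹.g • b
  map_add' := smul_add _
  map_smul' r b := by
    simp only [RingHom.id_apply]
    exact smul_comm _ _ _

@[simp] theorem gmul_apply (b : N.N₂) : gmul N b = 𝔹.g • b := rfl

/-- `id × g` on `N₁ × N₂`. -/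
def mulG : (N.N₁ × N.N₂) →ₗ[R] (N.N₁ × N.N₂) :=
  LinearMap.prodMap LinearMap.id (gmul N)

@[simp] theorem mulG_apply (x : N.N₁ × N.N₂) : mulG N x = (x.1, 𝔹.g • x.2) := rfl

theorem twist_d_apply (n : ℤ) (x : N.N₁ × N.N₂) :
    (N.twist n).d x = N.ι₁ x.1 - ((𝔹.u ^ n : 𝔹.B₁₂ˣ) : 𝔹.B₁₂) • N.ι₂ x.2 := by
  rw [GluedModule.d_apply]
  rfl

theorem twist_zero_d : (N.twist 0).d = N.d := by
  apply LinearMap.ext
  intro x
  rw [twist_d_apply, GluedModule.d_apply, zpow_zero, Units.val_one, one_smul]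

/-- `u^(n+1) • ι₂ (g • b) = u^n • ι₂ b`. -/
theorem u_zpow_succ_smul_ι₂_g (n : ℤ) (b : N.N₂) :
    ((𝔹.u ^ (n + 1) : 𝔹.B₁₂ˣ) : 𝔹.B₁₂) • N.ι₂ (𝔹.g • b) =
      ((𝔹.u ^ n : 𝔹.B₁₂ˣ) : 𝔹.B₁₂) • N.ι₂ b := by
  rw [N.ι₂_smul, ← mul_smul]
  congr 1
  have h : (𝔹.u ^ (n + 1) : 𝔹.B₁₂ˣ) * 𝔹.u⁻¹ = 𝔹.u ^ n := by
    rw [zpow_add_one, mul_assoc, mul_inv_cancel, mul_one]
  rw [← h, Units.val_mul, TwoChart.u_inv_val]

/-- The factorisation `d_{N⟨n+1⟩} ∘ (id × g) = d_{N⟨n⟩}`. -/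
theorem twist_succ_d_comp_mulG (n : ℤ) : (N.twist (n + 1)).d ∘ₗ mulG N = (N.twist n).d := by
  apply LinearMap.ext
  intro x
  rw [LinearMap.comp_apply, twist_d_apply, twist_d_apply, mulG_apply]
  dsimp only
  rw [u_zpow_succ_smul_ι₂_g]

/-- `ι₂ b = u^n • ι₂ (g^n • b)`. -/
theorem ι₂_eq_u_pow_smul (n : ℕ) (b : N.N₂) :
    N.ι₂ b = ((𝔹.u ^ (n : ℤ) : 𝔹.B₁₂ˣ) : 𝔹.B₁₂) • N.ι₂ (𝔹.g ^ n • b) := by
  induction n generalizing b with
  | zero => simp
  | succ n ih =>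
    rw [Nat.cast_succ, pow_succ', mul_smul, u_zpow_succ_smul_ι₂_g]
    exact ih b

/-- The range of the Čech differential grows under twisting by `n ≥ 0`. -/
theorem range_d_le_range_twist_d (n : ℕ) :
    LinearMap.range N.d ≤ LinearMap.range (N.twist (n : ℤ)).d := by
  rintro _ ⟨x, rfl⟩
  refine ⟨(x.1, 𝔹.g ^ n • x.2), ?_⟩
  rw [twist_d_apply, GluedModule.d_apply]
  dsimp only
  rw [← ι₂_eq_u_pow_smul]

/-- `r₁ f ^ m • ι₂ b` lies in the range of `d_{N⟨n⟩}` for `n ≥ m`. -/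
theorem f_pow_smul_ι₂_mem_range_twist_d {m n : ℕ} (h : m ≤ n) (b : N.N₂) :
    𝔹.r₁ 𝔹.f ^ m • N.ι₂ b ∈ LinearMap.range (N.twist (n : ℤ)).d := by
  refine ⟨(0, -(𝔹.g ^ (n - m) • b)), ?_⟩
  rw [twist_d_apply]
  dsimp only
  rw [map_zero, zero_sub, map_neg, smul_neg, neg_neg]
  have h1 : N.ι₂ b = ((𝔹.u ^ ((n - m : ℕ) : ℤ) : 𝔹.B₁₂ˣ) : 𝔹.B₁₂) • N.ι₂ (𝔹.g ^ (n - m) • b) :=
    ι₂_eq_u_pow_smul N (n - m) b
  have h2 : ((𝔹.u ^ (n : ℤ) : 𝔹.B₁₂ˣ) : 𝔹.B₁₂) =
      𝔹.r₁ 𝔹.f ^ m * ((𝔹.u ^ ((n - m : ℕ) : ℤ) : 𝔹.B₁₂ˣ) : 𝔹.B₁₂) := by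
    have h3 : (𝔹.u ^ (n : ℤ) : 𝔹.B₁₂ˣ) = 𝔹.u ^ m * 𝔹.u ^ ((n - m : ℕ) : ℤ) := by
      rw [zpow_natCast, zpow_natCast, ← pow_add, Nat.add_sub_cancel' h]
    rw [h3, Units.val_mul, Units.val_pow_eq_pow_val, TwoChart.u_val]
  rw [h2, mul_smul, ← h1]

/-- **Uniform vanishing.**  If `H¹(N)` is a finitely generated `R`-module then `H¹(N⟨n⟩) = 0`
for all large `n`. -/
theorem exists_twist_H1_subsingleton [Module.Finite R N.H1] :
    ∃ n₀ : ℕ, ∀ n : ℕ, n₀ ≤ n → Subsingleton (N.twist (n : ℤ)).H1 := by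
  classical
  obtain ⟨t, ht⟩ := (Module.finite_def.mp (inferInstance : Module.Finite R N.H1))
  -- lift generators
  have hlift : ∀ c : N.H1, ∃ (b : N.N₂) (m : ℕ),
      c = (LinearMap.range N.d).mkQ (𝔹.r₁ 𝔹.f ^ m • N.ι₂ b) := by
    intro c
    obtain ⟨y, rfl⟩ := Submodule.mkQ_surjective _ c
    obtain ⟨b, m, hb⟩ := N.surj₂ y
    exact ⟨b, m, by rw [hb]⟩
  choose bb mm hbm using hlift
  refine ⟨t.sup mm, fun n hn => ?_⟩
  rw [Submodule.Quotient.subsingleton_iff, eq_top_iff]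
  intro y _
  -- the class of `y` in `H¹(N)` is a combination of the generators
  have hy : (LinearMap.range N.d).mkQ y ∈ Submodule.span R (t : Set N.H1) := by
    rw [ht]; trivial
  have key : ∀ c ∈ Submodule.span R (t : Set N.H1), ∀ z : N.N₁₂,
      (LinearMap.range N.d).mkQ z = c → z ∈ LinearMap.range (N.twist (n : ℤ)).d := by
    intro c hc
    induction hc using Submodule.span_induction with
    | mem c hct =>
      intro z hz
      have hm : mm c ≤ n := le_trans (Finset.le_sup (f := mm) hct) hn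
      have h1 : z - 𝔹.r₁ 𝔹.f ^ mm c • N.ι₂ (bb c) ∈ LinearMap.range N.d := by
        rw [← Submodule.Quotient.mk_eq_zero, Submodule.Quotient.mk_sub, sub_eq_zero]
        exact hz.trans (hbm c)
      have h2 := range_d_le_range_twist_d N n h1
      have h3 := f_pow_smul_ι₂_mem_range_twist_d N hm (bb c)
      have := Submodule.add_mem _ h2 h3
      simpa using this
    | zero =>
      intro z hz
      have h1 : z ∈ LinearMap.range N.d := by
        rw [← Submodule.Quotient.mk_eq_zero]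
        exact hz
      exact range_d_le_range_twist_d N n h1
    | add c c' _ _ ih ih' =>
      intro z hz
      obtain ⟨z', rfl⟩ := Submodule.mkQ_surjective _ c'
      have h1 : (LinearMap.range N.d).mkQ (z - z') = c := by
        rw [map_sub, hz, add_sub_cancel_right]
      have := Submodule.add_mem _ (ih (z - z') h1) (ih' z' rfl)
      simpa using this
    | smul r c _ ih =>
      intro z hz
      obtain ⟨z', rfl⟩ := Submodule.mkQ_surjective _ c
      have h1 : z - r • z' ∈ LinearMap.range N.d := by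
        rw [← Submodule.Quotient.mk_eq_zero, Submodule.Quotient.mk_sub, sub_eq_zero]
        exact hz
      have h2 := range_d_le_range_twist_d N n h1
      have h3 := Submodule.smul_mem _ r (ih z' rfl)
      have := Submodule.add_mem _ h2 h3
      simpa using this
  exact key _ hy y rfl

end Fermat.Agent.S25.DEG.V6190.A4
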