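/-
S25 package A4 (helper4031): the Euler characteristic of the fibres of a glued module is locally
constant on the base (route section 2.3, export `E_deg`), in Core vocabulary.

For a field `κ` over the base ring `R`, the fibre of `N` at `κ` is the two-term complex
`N.d.baseChange κ : κ ⊗[R] (N₁ × N₂) →ₗ[κ] κ ⊗[R] N₁₂`; its Euler characteristic is the
Fredholm index `ind`.  Main results:

* `ind_baseChange_eq_chiFun` : if `H¹(N⟨n⟩) = 0` then for every field `κ` over `R` the fibre complex
  is Fredholm and `ind (N.d.baseChange κ) = chiFun N n (ker (R → κ))`, where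
  `chiFun N n p = rank_p H⁰(N⟨n⟩) - n * rank_p (N₂ ⧸ g N₂)`;
* `isLocallyConstant_chiFun` : `chiFun N n` is locally constant;
* `exists_locallyConstant_ind` : packaged version (no reference to `n`).
-/
import Fermat.Agent.S25.DEG.V6190.Index
import Fermat.Agent.S25.DEG.V6190.FibreLemmas
import Fermat.Agent.S25.DEG.V6190.TwistVanish

set_option autoImplicit false
set_option linter.style.haveILetI false

universe u v

namespace Fermat.Agent.S25.DEG.V6190.A4

open Fermat.Agent.S25 Module TensorProduct

variable {R : Type u} [CommRing R] {𝔹 : TwoChart R} (N : GluedModule 𝔹)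

/-- The cokernel `N₂ ⧸ g N₂` of multiplication by `g` on the second chart module. -/
abbrev CokerG : Type u := N.N₂ ⧸ LinearMap.range (gmul N)

/-- The Čech differential of `N⟨n⟩`, with source and target written in terms of `N`. -/
def dtw (n : ℤ) : (N.N₁ × N.N₂) →ₗ[R] N.N₁₂ := (N.twist n).d

theorem dtw_zero : dtw N 0 = N.d := twist_zero_d N

theorem dtw_succ_comp_mulG (n : ℤ) : dtw N (n + 1) ∘ₗ mulG N = dtw N n :=
  twist_succ_d_comp_mulG N n

theorem mulG_injective (hg : Function.Injective (gmul N)) : Function.Injective (mulG N) := by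
  intro x y hxy
  have h1 : (mulG N x).1 = (mulG N y).1 := congrArg Prod.fst hxy
  have h2 : (mulG N x).2 = (mulG N y).2 := congrArg Prod.snd hxy
  exact Prod.ext h1 (hg h2)

/-- `coker (id × g) ≃ coker g`. -/
noncomputable def cokerMulGEquiv :
    ((N.N₁ × N.N₂) ⧸ LinearMap.range (mulG N)) ≃ₗ[R] CokerG N :=
  have hsurj : Function.Surjective
      ((LinearMap.range (gmul N)).mkQ ∘ₗ LinearMap.snd R N.N₁ N.N₂) := by
    intro c
    obtain ⟨b, rfl⟩ := Submodule.mkQ_surjective _ c
    exact ⟨(0, b), rfl⟩
  have hker : LinearMap.range (mulG N) =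
      LinearMap.ker ((LinearMap.range (gmul N)).mkQ ∘ₗ LinearMap.snd R N.N₁ N.N₂) := by
    ext x
    rw [LinearMap.mem_ker, LinearMap.comp_apply, Submodule.mkQ_apply,
      Submodule.Quotient.mk_eq_zero]
    constructor
    · rintro ⟨y, rfl⟩
      exact ⟨y.2, rfl⟩
    · rintro ⟨b, hb⟩
      refine ⟨(x.1, b), ?_⟩
      exact Prod.ext rfl hb
  (Submodule.quotEquivOfEq _ _ hker).trans
    (((LinearMap.range (gmul N)).mkQ ∘ₗ LinearMap.snd R N.N₁ N.N₂).quotKerEquivOfSurjective hsurj)

/-- The candidate Euler characteristic function on `Spec R`, computed from a twist `N⟨n⟩`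
without `H¹`. -/
noncomputable def chiFun (n : ℕ) (p : PrimeSpectrum R) : ℤ :=
  (rankAtStalk (N.twist (n : ℤ)).H0 p : ℤ) - (n : ℤ) * (rankAtStalk (CokerG N) p : ℤ)

theorem isLocallyConstant_chiFun (n : ℕ)
    [Module.Finite R (N.twist (n : ℤ)).H0] [Module.Projective R (N.twist (n : ℤ)).H0]
    [Module.Finite R (CokerG N)] [Module.Projective R (CokerG N)] :
    IsLocallyConstant (chiFun N n) := by
  haveI : Module.FinitePresentation R (N.twist (n : ℤ)).H0 :=
    Module.finitePresentation_of_projective _ _
  haveI : Module.FinitePresentation R (CokerG N) :=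
    Module.finitePresentation_of_projective _ _
  have h1 : IsLocallyConstant (rankAtStalk (R := R) (N.twist (n : ℤ)).H0) :=
    isLocallyConstant_rankAtStalk
  have h2 : IsLocallyConstant (rankAtStalk (R := R) (CokerG N)) :=
    isLocallyConstant_rankAtStalk
  exact h1.comp₂ h2 (fun a b => (a : ℤ) - (n : ℤ) * (b : ℤ))

section Fibre

variable (κ : Type v) [Field κ] [Algebra R κ]

/-- The dimension of the fibre of `N₂ ⧸ g N₂`, as the dimension of the cokernel of the fibre of
`id × g`. -/
theorem finrank_coker_mulG_baseChange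
    [Module.Finite R (CokerG N)] [Module.Projective R (CokerG N)] :
    FiniteDimensional κ ((κ ⊗[R] (N.N₁ × N.N₂)) ⧸ LinearMap.range ((mulG N).baseChange κ)) ∧
      finrank κ ((κ ⊗[R] (N.N₁ × N.N₂)) ⧸ LinearMap.range ((mulG N).baseChange κ)) =
        rankAtStalk (CokerG N) (PrimeSpectrum.comap (algebraMap R κ) ⊥) := by
  haveI : Module.Finite R ((N.N₁ × N.N₂) ⧸ LinearMap.range (mulG N)) :=
    Module.Finite.equiv (cokerMulGEquiv N).symm
  haveI : Module.Projective R ((N.N₁ × N.N₂) ⧸ LinearMap.range (mulG N)) :=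
    Module.Projective.of_equiv (cokerMulGEquiv N).symm
  have e := cokerBaseChangeEquiv κ (mulG N)
  refine ⟨Module.Finite.equiv e.symm, ?_⟩
  rw [e.finrank_eq, finrank_tensor_eq_rankAtStalk, rankAtStalk_eq_of_equiv (cokerMulGEquiv N)]

/-- Descending along the twists: Fredholmness and the index formula. -/
theorem isFred_dtw_descend (hg : Function.Injective (gmul N))
    [Module.Finite R (CokerG N)] [Module.Projective R (CokerG N)] (j : ℕ) :
    ∀ i : ℕ, IsFred ((dtw N ((i + j : ℕ) : ℤ)).baseChange κ) →
      IsFred ((dtw N (i : ℤ)).baseChange κ) ∧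
        ind ((dtw N (i : ℤ)).baseChange κ) = ind ((dtw N ((i + j : ℕ) : ℤ)).baseChange κ) -
          (j : ℤ) * (rankAtStalk (CokerG N) (PrimeSpectrum.comap (algebraMap R κ) ⊥) : ℤ) := by
  induction j with
  | zero =>
    intro i h
    refine ⟨by simpa using h, by simp⟩
  | succ j ih =>
    intro i h
    have hij : i + (j + 1) = (i + 1) + j := by omega
    rw [hij] at h ⊢
    obtain ⟨h1, h2⟩ := ih (i + 1) h
    obtain ⟨hfd, hfr⟩ := finrank_coker_mulG_baseChange N κ
    haveI := hfd
    haveI : Module.Projective R ((N.N₁ × N.N₂) ⧸ LinearMap.range (mulG N)) :=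
      Module.Projective.of_equiv (cokerMulGEquiv N).symm
    have hinj : Function.Injective ((mulG N).baseChange κ) :=
      baseChange_injective_of_projective_coker κ (mulG N) (mulG_injective N hg)
    have hcomp : (dtw N ((i + 1 : ℕ) : ℤ)).baseChange κ ∘ₗ (mulG N).baseChange κ =
        (dtw N (i : ℤ)).baseChange κ := by
      rw [← LinearMap.baseChange_comp, Nat.cast_succ, dtw_succ_comp_mulG]
    obtain ⟨h3, h4⟩ := isFred_comp_and_ind ((mulG N).baseChange κ)
      ((dtw N ((i + 1 : ℕ) : ℤ)).baseChange κ) hinj h1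
    rw [hcomp] at h3 h4
    refine ⟨h3, ?_⟩
    rw [h4, h2, hfr]
    push_cast
    ring

/-- The fibre of a twist without `H¹`: Fredholm, with index the rank of `H⁰`. -/
theorem isFred_dtw_of_H1_subsingleton (n : ℕ) [Module.Projective R N.N₁₂]
    [Subsingleton (N.twist (n : ℤ)).H1]
    [Module.Finite R (N.twist (n : ℤ)).H0] [Module.Projective R (N.twist (n : ℤ)).H0] :
    IsFred ((dtw N (n : ℤ)).baseChange κ) ∧
      ind ((dtw N (n : ℤ)).baseChange κ) =
        (rankAtStalk (N.twist (n : ℤ)).H0 (PrimeSpectrum.comap (algebraMap R κ) ⊥) : ℤ) := by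
  have hd : Function.Surjective (dtw N (n : ℤ)) := by
    have h : Subsingleton (N.N₁₂ ⧸ LinearMap.range (dtw N (n : ℤ))) :=
      (inferInstance : Subsingleton (N.twist (n : ℤ)).H1)
    rw [Submodule.Quotient.subsingleton_iff] at h
    exact LinearMap.range_eq_top.mp h
  haveI hfinK : Module.Finite R (LinearMap.ker (dtw N (n : ℤ))) :=
    (inferInstance : Module.Finite R (N.twist (n : ℤ)).H0)
  haveI hprojK : Module.Projective R (LinearMap.ker (dtw N (n : ℤ))) :=
    (inferInstance : Module.Projective R (N.twist (n : ℤ)).H0)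
  have e := kerBaseChangeEquiv κ (dtw N (n : ℤ)) hd
  have hsurj : Function.Surjective ((dtw N (n : ℤ)).baseChange κ) :=
    LinearMap.baseChange_surjective κ hd
  have hrange : LinearMap.range ((dtw N (n : ℤ)).baseChange κ) = ⊤ :=
    LinearMap.range_eq_top.mpr hsurj
  haveI hsub : Subsingleton ((κ ⊗[R] N.N₁₂) ⧸ LinearMap.range ((dtw N (n : ℤ)).baseChange κ)) := by
    rw [Submodule.Quotient.subsingleton_iff]
    exact hrange
  refine ⟨⟨Module.Finite.equiv e, inferInstance⟩, ?_⟩
  have hz : finrank κ
      ((κ ⊗[R] N.N₁₂) ⧸ LinearMap.range ((dtw N (n : ℤ)).baseChange κ)) = 0 :=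
    finrank_zero_of_subsingleton
  unfold ind
  rw [hz, ← e.finrank_eq, finrank_tensor_eq_rankAtStalk]
  simp only [Nat.cast_zero, sub_zero]
  rfl

/-- **Fibre Euler characteristic.**  If `H¹(N⟨n⟩) = 0`, then for every field `κ` over `R` the fibre
complex `N.d.baseChange κ` is Fredholm and its index is `chiFun N n` at the point of `Spec R`
defined by `κ`. -/
theorem ind_baseChange_eq_chiFun (n : ℕ) [Module.Projective R N.N₁₂]
    [Subsingleton (N.twist (n : ℤ)).H1]
    [Module.Finite R (N.twist (n : ℤ)).H0] [Module.Projective R (N.twist (n : ℤ)).H0]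
    (hg : Function.Injective (gmul N))
    [Module.Finite R (CokerG N)] [Module.Projective R (CokerG N)] :
    IsFred (N.d.baseChange κ) ∧
      ind (N.d.baseChange κ) = chiFun N n (PrimeSpectrum.comap (algebraMap R κ) ⊥) := by
  obtain ⟨h1, h2⟩ := isFred_dtw_of_H1_subsingleton N κ n
  have h := isFred_dtw_descend N κ hg n 0
  simp only [Nat.zero_add, Nat.cast_zero] at h
  obtain ⟨h3, h4⟩ := h h1
  rw [dtw_zero] at h3 h4
  refine ⟨h3, ?_⟩
  rw [h4, h2]
  rfl

end Fibre

/-- `H⁰` of a glued module without `H¹` and with `R`-projective pieces is `R`-projective. -/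
theorem H0_projective_of_H1_subsingleton (M : GluedModule 𝔹) [Subsingleton M.H1]
    [Module.Projective R M.N₁] [Module.Projective R M.N₂] [Module.Projective R M.N₁₂] :
    Module.Projective R M.H0 := by
  have hd : Function.Surjective M.d := by
    have h : Subsingleton (M.N₁₂ ⧸ LinearMap.range M.d) := (inferInstance : Subsingleton M.H1)
    rw [Submodule.Quotient.subsingleton_iff] at h
    exact LinearMap.range_eq_top.mp h
  exact projective_ker_of_surjective M.d hd

/-- **`E_deg`, Core form.**  Let `N` be a glued module over a two-chart over any commutative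
ring `R` such that `H¹(N)` is finitely generated, `N₁`, `N₂`, `N₁₂` are `R`-projective, `H⁰` of
every twist without `H¹` is finitely generated, `g` is injective on `N₂` and `N₂ ⧸ g N₂` is finite
projective over `R`.  Then the Euler characteristic of the fibres of `N` is a locally constant
function on `Spec R`. -/
theorem exists_locallyConstant_ind
    [Module.Finite R N.H1]
    [Module.Projective R N.N₁] [Module.Projective R N.N₂] [Module.Projective R N.N₁₂]
    (hfin : ∀ n : ℕ, Subsingleton (N.twist (n : ℤ)).H1 → Module.Finite R (N.twist (n : ℤ)).H0)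
    (hg : Function.Injective (gmul N))
    [Module.Finite R (CokerG N)] [Module.Projective R (CokerG N)] :
    ∃ χ : PrimeSpectrum R → ℤ, IsLocallyConstant χ ∧
      ∀ (κ : Type v) [Field κ] [Algebra R κ],
        IsFred (N.d.baseChange κ) ∧
          ind (N.d.baseChange κ) = χ (PrimeSpectrum.comap (algebraMap R κ) ⊥) := by
  obtain ⟨n, hn⟩ := exists_twist_H1_subsingleton N
  haveI hsub : Subsingleton (N.twist (n : ℤ)).H1 := hn n le_rfl
  haveI hfinH0 : Module.Finite R (N.twist (n : ℤ)).H0 := hfin n hsub
  haveI hprojH0 : Module.Projective R (N.twist (n : ℤ)).H0 :=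
    H0_projective_of_H1_subsingleton (N.twist (n : ℤ))
  exact ⟨chiFun N n, isLocallyConstant_chiFun N n, fun κ _ _ =>
    ind_baseChange_eq_chiFun N κ n hg⟩

end Fermat.Agent.S25.DEG.V6190.A4
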