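/-
S25 A4 (helper7811): E_deg for line bundles on the chart `H6408.chart 𝒞 R` — UNCONDITIONAL form.

Assembles
* helper4031 `A4.exists_locallyConstant_ind` (Core form, with hypotheses (F), (b), (CB1)-finite, (d)),
* helper6470 `A2h6470` ((F) `H1_finite'`, degree bound `exists_fg_H0_le`, (CB1) `H0_finite`),
* helper5050 `H5050.exists_polyBasis₁/₂` (`R ⊗ A_i` free over `R[f]`, `R[g]`),
* helper6408 `H6408.chart`, helper7630 `A1/Basic` (`twist`),
* `H7811.ChartProj` (this seat: hypotheses (b), (d)),
into: for every line bundle `N` on `𝒞.chart R` (`R` ANY `k`-algebra, no noetherian hypothesis)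
the Euler characteristic of the fibres `ind (N.d.baseChange κ)` is a locally constant function of
the point `ker (R → κ)` of `Spec R`.  Also exported: `H1_finite_chart`, `H0_finite_chart`,
`H0_projective_chart`, `polyRetract₁/₂`.
-/
import Fermat.Agent.S25.DEG.V6190.ChartProj
import Fermat.Agent.S25.DEG.V6190.A0Free5050
import Fermat.Agent.S25.DEG.V6190.A2h6470
import Fermat.Agent.S25.DEG.V6190.DegLocConst

set_option autoImplicit false
set_option linter.style.haveILetI false

universe u v

namespace Fermat.Agent.S25.DEG.V6190.H7811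

open scoped TensorProduct Polynomial
open Polynomial Fermat.Agent.S25

/-! ### Polynomial retracts from a polynomial basis -/

section PolyRetract

variable {R : Type u} [CommRing R] {B : Type u} [CommRing B] [Algebra R B]
  {N : Type u} [AddCommGroup N] [Module R N] [Module B N] [IsScalarTower R B N]

/-- If `B` is free over `R[f]` (in the explicit form of a bijection `E : R[X]^n → B` turning `X`
into `f`), then every finite projective `B`-module is an `R`-linear retract of a finite free
`R[X]`-module, compatibly with `f`. -/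
theorem polyRetract_of_basis (f : B) {n : ℕ} (E : (Fin n → R[X]) →ₗ[R] B)
    (hE : Function.Bijective E) (hX : ∀ c : Fin n → R[X], E (fun i => X * c i) = f * E c)
    [Module.Finite B N] [Module.Projective B N] :
    A2h6470.PolyRetract (R := R) f N := by
  classical
  obtain ⟨r, π, hπ⟩ := Module.Finite.exists_fin' B N
  obtain ⟨σ, hσ⟩ := Module.projective_lifting_property π LinearMap.id hπ
  let e : B ≃ₗ[R] (Fin n → R[X]) := (LinearEquiv.ofBijective E hE).symm
  have hEe : ∀ b : B, E (e b) = b := fun b => (LinearEquiv.ofBijective E hE).apply_symm_apply b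
  have heE : ∀ c : Fin n → R[X], e (E c) = c := fun c =>
    (LinearEquiv.ofBijective E hE).symm_apply_apply c
  have hef : ∀ b : B, e (f * b) = fun i => X * e b i := by
    intro b
    have h1 := hX (e b)
    rw [hEe] at h1
    rw [← h1, heE]
  let i : N →ₗ[R] (Fin (r * n) → R[X]) :=
    { toFun := fun x q => e (σ x (finProdFinEquiv.symm q).1) (finProdFinEquiv.symm q).2
      map_add' := fun x y => by
        funext q
        simp only [map_add, Pi.add_apply]
      map_smul' := fun c x => by
        funext q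
        have h1 : σ (c • x) = c • σ x := by
          rw [← algebraMap_smul B c x, map_smul, algebraMap_smul]
        simp only [h1, Pi.smul_apply, map_smul, RingHom.id_apply] }
  let p : (Fin (r * n) → R[X]) →ₗ[R] N :=
    { toFun := fun c => π fun a => E fun b => c (finProdFinEquiv (a, b))
      map_add' := fun c d => by
        rw [← map_add]
        congr 1
        funext a
        rw [Pi.add_apply, ← map_add]
        rfl
      map_smul' := fun t c => by
        simp only [RingHom.id_apply]
        rw [← algebraMap_smul B t (π _), ← map_smul]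
        congr 1
        funext a
        rw [Pi.smul_apply, algebraMap_smul, ← map_smul]
        rfl }
  refine ⟨r * n, i, p, ?_, ?_⟩
  · intro x
    change π (fun a => E fun b => e (σ x (finProdFinEquiv.symm (finProdFinEquiv (a, b))).1)
      (finProdFinEquiv.symm (finProdFinEquiv (a, b))).2) = x
    have h2 : (fun a => E fun b => e (σ x (finProdFinEquiv.symm (finProdFinEquiv (a, b))).1)
        (finProdFinEquiv.symm (finProdFinEquiv (a, b))).2) = σ x := by
      funext a
      simp only [Equiv.symm_apply_apply]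
      exact hEe _
    rw [h2]
    exact LinearMap.congr_fun hσ x
  · intro x
    funext q
    change e (σ (f • x) (finProdFinEquiv.symm q).1) (finProdFinEquiv.symm q).2 =
      X * e (σ x (finProdFinEquiv.symm q).1) (finProdFinEquiv.symm q).2
    rw [map_smul, Pi.smul_apply, smul_eq_mul, hef]

end PolyRetract

/-! ### Line bundles on the chart of a curve -/

section Curve

variable {k : Type u} [Field k] [IsAlgClosed k] (𝒞 : CurveData k)
  (R : Type u) [CommRing R] [Algebra k R] (N : GluedModule (H6408.chart 𝒞 R))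

omit [IsAlgClosed k] in
theorem finite_adjoin_of_polyMap {A : Type u} [CommRing A] [Algebra k A] (x : A) {n : ℕ}
    (b : Fin n → A) (hb : Function.Surjective (H5050.polyMap k R x b)) :
    Module.Finite (Algebra.adjoin R ({(1 : R) ⊗ₜ[k] x} : Set (R ⊗[k] A))) (R ⊗[k] A) := by
  classical
  refine ⟨⟨Finset.univ.image fun i => (1 : R) ⊗ₜ[k] b i, ?_⟩⟩
  rw [eq_top_iff]
  rintro y -
  obtain ⟨c, rfl⟩ := hb y
  rw [H5050.polyMap_apply]
  refine Submodule.sum_mem _ fun i _ => ?_
  have hmem : aeval ((1 : R) ⊗ₜ[k] x) (c i) ∈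
      Algebra.adjoin R ({(1 : R) ⊗ₜ[k] x} : Set (R ⊗[k] A)) := by
    rw [Algebra.adjoin_singleton_eq_range_aeval]
    exact ⟨c i, rfl⟩
  have hgen : (1 : R) ⊗ₜ[k] b i ∈ Submodule.span
      (Algebra.adjoin R ({(1 : R) ⊗ₜ[k] x} : Set (R ⊗[k] A)))
      ((Finset.univ.image fun i => (1 : R) ⊗ₜ[k] b i : Finset (R ⊗[k] A)) : Set (R ⊗[k] A)) :=
    Submodule.subset_span (by simp)
  exact Submodule.smul_mem _ ⟨_, hmem⟩ hgen

theorem finite_adjoin₁ :
    Module.Finite (Algebra.adjoin R ({(H6408.chart 𝒞 R).f} : Set (H6408.chart 𝒞 R).B₁))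
      (H6408.chart 𝒞 R).B₁ := by
  obtain ⟨n, b, -, -, hb⟩ := H5050.exists_polyBasis₁ 𝒞
  exact finite_adjoin_of_polyMap R 𝒞.f b (hb R).2

theorem finite_adjoin₂ :
    Module.Finite (Algebra.adjoin R ({(H6408.chart 𝒞 R).g} : Set (H6408.chart 𝒞 R).B₂))
      (H6408.chart 𝒞 R).B₂ := by
  obtain ⟨n, b, -, -, hb⟩ := H5050.exists_polyBasis₂ 𝒞
  exact finite_adjoin_of_polyMap R 𝒞.g b (hb R).2

/-- `N₁` is a polynomial retract with respect to `f`. -/
theorem polyRetract₁ (hN : N.IsLineBundle) :
    A2h6470.PolyRetract (R := R) (H6408.chart 𝒞 R).f N.N₁ := by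
  haveI := hN.inv₁
  obtain ⟨n, b, -, -, hb⟩ := H5050.exists_polyBasis₁ 𝒞
  exact polyRetract_of_basis (B := (H6408.chart 𝒞 R).B₁) (H6408.chart 𝒞 R).f
    (H5050.polyMap k R 𝒞.f b) (hb R) (H5050.polyMap_X_mul k R 𝒞.f b)

/-- `N₂` is a polynomial retract with respect to `g`. -/
theorem polyRetract₂ (hN : N.IsLineBundle) :
    A2h6470.PolyRetract (R := R) (H6408.chart 𝒞 R).g N.N₂ := by
  haveI := hN.inv₂
  obtain ⟨n, b, -, -, hb⟩ := H5050.exists_polyBasis₂ 𝒞
  exact polyRetract_of_basis (B := (H6408.chart 𝒞 R).B₂) (H6408.chart 𝒞 R).g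
    (H5050.polyMap k R 𝒞.g b) (hb R) (H5050.polyMap_X_mul k R 𝒞.g b)

/-- (F) for line bundles on the chart: `H¹` is a finitely generated `R`-module. -/
theorem H1_finite_chart (hN : N.IsLineBundle) : Module.Finite R N.H1 := by
  haveI := hN.inv₁
  haveI := finite_adjoin₁ 𝒞 R
  exact A2h6470.H1_finite' N

/-- (CB1), finiteness: if `H¹(N) = 0` then `H⁰(N)` is a finitely generated `R`-module. -/
theorem H0_finite_chart (hN : N.IsLineBundle) (h : Subsingleton N.H1) : Module.Finite R N.H0 := by
  haveI := hN.inv₁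
  haveI := hN.inv₂
  haveI := finite_adjoin₁ 𝒞 R
  haveI := finite_adjoin₂ 𝒞 R
  haveI : Module.Finite (Algebra.adjoin R ({(H6408.chart 𝒞 R).f} : Set (H6408.chart 𝒞 R).B₁))
      N.N₁ := Module.Finite.trans (H6408.chart 𝒞 R).B₁ N.N₁
  haveI : Module.Finite (Algebra.adjoin R ({(H6408.chart 𝒞 R).g} : Set (H6408.chart 𝒞 R).B₂))
      N.N₂ := Module.Finite.trans (H6408.chart 𝒞 R).B₂ N.N₂
  haveI := projective_N₁₂ 𝒞 R N hN
  obtain ⟨s₁, hs₁⟩ := A2h6470.exists_finset_span_pow (R := R) (H6408.chart 𝒞 R).f N.N₁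
  obtain ⟨s₂, hs₂⟩ := A2h6470.exists_finset_span_pow (R := R) (H6408.chart 𝒞 R).g N.N₂
  obtain ⟨F, hF, hle⟩ := A2h6470.exists_fg_H0_le N (polyRetract₁ 𝒞 R N hN) (polyRetract₂ 𝒞 R N hN)
    s₁ hs₁ s₂ hs₂
  exact A2h6470.H0_finite N h F hF hle

omit [IsAlgClosed k] in
/-- (CB1), projectivity: if `H¹(N) = 0` then `H⁰(N)` is a projective `R`-module. -/
theorem H0_projective_chart (hN : N.IsLineBundle) (h : Subsingleton N.H1) :
    Module.Projective R N.H0 := by
  haveI := projective_N₁ 𝒞 R N hN
  haveI := projective_N₂ 𝒞 R N hN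
  haveI := projective_N₁₂ 𝒞 R N hN
  exact A2h6470.H0_projective N h

/-- **E_deg** (route 2.3) for line bundles on the chart of a curve over an arbitrary `k`-algebra
`R`: the Euler characteristic of the fibre complexes is a locally constant function on `Spec R`. -/
theorem exists_locallyConstant_ind_chart (hN : N.IsLineBundle) :
    ∃ χ : PrimeSpectrum R → ℤ, IsLocallyConstant χ ∧
      ∀ (κ : Type v) [Field κ] [Algebra R κ],
        A4.IsFred (N.d.baseChange κ) ∧
          A4.ind (N.d.baseChange κ) = χ (PrimeSpectrum.comap (algebraMap R κ) ⊥) := by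
  haveI := H1_finite_chart 𝒞 R N hN
  haveI := projective_N₁ 𝒞 R N hN
  haveI := projective_N₂ 𝒞 R N hN
  haveI := projective_N₁₂ 𝒞 R N hN
  have hQ : ∀ n : N.N₂, n ∈ LinearMap.range (A4.gmul N) ↔
      ∃ m : N.N₂, (H6408.chart 𝒞 R).g • m = n := fun n => Iff.rfl
  haveI : Module.Finite R (A4.CokerG N) := finite_quot_g_smul 𝒞 R N hN _ hQ
  haveI : Module.Projective R (A4.CokerG N) := projective_quot_g_smul 𝒞 R N hN _ hQ
  exact A4.exists_locallyConstant_ind N
    (fun n hsub => H0_finite_chart 𝒞 R (N.twist (n : ℤ)) (GluedModule.twist_isLineBundle hN _) hsub)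
    (g_smul_injective 𝒞 R N hN)

end Curve

end Fermat.Agent.S25.DEG.V6190.H7811
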